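/-
PROGRAMME III (S48), port leaf X1-IG / X1-IRR (helper19): residue fields of subfields of `ℚ((q))`
for the `ℓ`-Gauss valuation (main's `Igusa.gaussSubring ℓ`, `Igusa.gaussRes ℓ`).

* `resSubfield ℓ T` : the residue field `{res x | x ∈ T ∩ O} ⊆ 𝔽_ℓ((q))` of a subfield `T`;
* `exists_scale_family` : Gauss' lemma for a finite family of rational polynomials;
* `exists_dependent_res` : **`f ≤ n`** — if any `D + 1` elements of `T` are linearly dependent over
  `ℚ(j)` (polynomial coefficients), any `D + 1` elements of `resSubfield ℓ T` are linearly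
  dependent over `𝔽_ℓ(j̄) = Igusa.resField ℓ`.
-/
import Mathlib
import Fermat.Agent.Igusa.ChartAssemble
import Fermat.Agent.Igusa.ChartBase
import Fermat.Agent.Igusa.ModEqData
import Fermat.Agent.Igusa.SubstLevel

set_option autoImplicit false

noncomputable section

namespace Fermat.Agent.DS.IG

open ModularCurve Polynomial Fermat.Agent.Igusa

variable (ℓ : ℕ) [hℓ : Fact ℓ.Prime]

set_option quotPrecheck false in
local notation "ℤℓ" => ↥(GaloisRep.ratLocalizedAt ℓ)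

/-! ### The residue field of a subfield of `ℚ((q))` -/

/-- The residue field of the subfield `T ⊆ ℚ((q))` for the `ℓ`-Gauss valuation, inside
`𝔽_ℓ((q))`. -/
def resSubfield (T : Subfield (LaurentSeries ℚ)) : Subfield (LaurentSeries (ZMod ℓ)) where
  carrier := {y | ∃ x : gaussSubring ℓ, (x : LaurentSeries ℚ) ∈ T ∧ gaussRes ℓ x = y}
  mul_mem' := by
    rintro _ _ ⟨x, hx, rfl⟩ ⟨x', hx', rfl⟩
    exact ⟨x * x', T.mul_mem hx hx', map_mul _ _ _⟩
  one_mem' := ⟨1, T.one_mem, map_one _⟩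
  add_mem' := by
    rintro _ _ ⟨x, hx, rfl⟩ ⟨x', hx', rfl⟩
    exact ⟨x + x', T.add_mem hx hx', map_add _ _ _⟩
  zero_mem' := ⟨0, T.zero_mem, map_zero _⟩
  neg_mem' := by
    rintro _ ⟨x, hx, rfl⟩
    exact ⟨-x, T.neg_mem hx, map_neg _ _⟩
  inv_mem' := by
    rintro _ ⟨x, hx, rfl⟩
    by_cases h : gaussRes ℓ x = 0
    · rw [h, inv_zero]
      exact ⟨0, T.zero_mem, map_zero _⟩
    · exact ⟨⟨(x : LaurentSeries ℚ)⁻¹, inv_mem_gaussSubring_of_gaussRes_ne_zero ℓ x h⟩,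
        T.inv_mem hx, gaussRes_inv ℓ x h⟩

theorem mem_resSubfield_iff {T : Subfield (LaurentSeries ℚ)} {y : LaurentSeries (ZMod ℓ)} :
    y ∈ resSubfield ℓ T ↔ ∃ x : gaussSubring ℓ, (x : LaurentSeries ℚ) ∈ T ∧ gaussRes ℓ x = y :=
  Iff.rfl

theorem gaussRes_mem_resSubfield {T : Subfield (LaurentSeries ℚ)} (x : gaussSubring ℓ)
    (hx : (x : LaurentSeries ℚ) ∈ T) : gaussRes ℓ x ∈ resSubfield ℓ T := ⟨x, hx, rfl⟩

theorem resSubfield_mono {T T' : Subfield (LaurentSeries ℚ)} (h : T ≤ T') :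
    resSubfield ℓ T ≤ resSubfield ℓ T' := by
  rintro _ ⟨x, hx, rfl⟩
  exact ⟨x, h hx, rfl⟩

theorem jqN_mem_resSubfield {T : Subfield (LaurentSeries ℚ)} (d : ℕ) [NeZero d]
    (h : qExpand ℚ d jq ∈ T) : jqNModC (ZMod ℓ) d ∈ resSubfield ℓ T := by
  obtain ⟨h1, h2⟩ := gaussRes_jqN ℓ d
  exact ⟨⟨_, h1⟩, h, h2⟩

theorem resField_le_resSubfield {T : Subfield (LaurentSeries ℚ)} (hj : jq ∈ T) :
    resField ℓ ≤ resSubfield ℓ T := by
  rw [resField, Subfield.closure_le]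
  intro x hx
  rw [Set.mem_singleton_iff.mp hx]
  exact ⟨⟨jq, jq_mem_gaussSubring ℓ⟩, hj, gaussRes_jq ℓ⟩


/-! ### Gauss' lemma for a finite family of rational polynomials -/

omit hℓ in
theorem mem_ratLocalizedAt_of_padicValRat_nonneg [Fact ℓ.Prime] {r : ℚ}
    (h : 0 ≤ padicValRat ℓ r) : r ∈ GaloisRep.ratLocalizedAt ℓ := by
  have hp : ℓ.Prime := Fact.out
  show r.den.Coprime ℓ
  by_contra hcop
  have hdvd : ℓ ∣ r.den := by
    by_contra hnd
    exact hcop ((Nat.Prime.coprime_iff_not_dvd hp).2 hnd).symm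
  have hnum : ¬ (ℓ : ℤ) ∣ r.num := by
    intro hn
    have h1 : ℓ ∣ r.num.natAbs := Int.natCast_dvd.mp hn
    have h2 : ℓ ∣ Nat.gcd r.num.natAbs r.den := Nat.dvd_gcd h1 hdvd
    rw [r.reduced] at h2
    exact hp.one_lt.ne' (Nat.dvd_one.mp h2)
  have h3 : padicValRat ℓ r = (padicValInt ℓ r.num : ℤ) - (padicValNat ℓ r.den : ℤ) := rfl
  rw [h3, padicValInt.eq_zero_of_not_dvd hnum] at h
  have h4 : 1 ≤ padicValNat ℓ r.den := one_le_padicValNat_of_dvd r.den_pos.ne' hdvd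
  omega

theorem zlResidue_ne_zero_of_padicValRat_eq_zero {a : ℤℓ} (ha : a ≠ 0)
    (h : padicValRat ℓ (a : ℚ) = 0) : zlResidue ℓ a ≠ 0 := by
  intro h0
  obtain ⟨a', rfl⟩ := exists_eq_mul_of_zlResidue_eq_zero ℓ h0
  have ha' : a' ≠ 0 := fun h' => ha (by rw [h', mul_zero])
  rw [padicValRat_zlPrime_mul ℓ ha'] at h
  have := padicValRat_zl_nonneg ℓ a'
  omega

/-- **Gauss' lemma for a family.** A finite family of rational polynomials, not all zero, can be
scaled by a nonzero rational into `ℤ_(ℓ)[X]` so that not all reductions mod `ℓ` vanish. -/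
theorem exists_scale_family {n : ℕ} (c : Fin n → ℚ[X]) (hc : ∃ i, c i ≠ 0) :
    ∃ (u : ℚ) (c' : Fin n → ℤℓ[X]), u ≠ 0 ∧
      (∀ i, (c' i).map (GaloisRep.ratLocalizedAt ℓ).subtype = C u * c i) ∧
      ∃ i, (c' i).map (zlResidue ℓ) ≠ 0 := by
  classical
  have hp : ℓ.Prime := Fact.out
  have hℓq : (ℓ : ℚ) ≠ 0 := by exact_mod_cast hp.ne_zero
  -- the index set of nonzero coefficients
  set S : Finset (Fin n × ℕ) :=
    (Finset.univ : Finset (Fin n)).sigma (fun i => (c i).support) |>.map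
      ⟨fun x => (x.1, x.2), fun x y h => by
        cases x; cases y; simp only [Prod.mk.injEq] at h; obtain ⟨rfl, rfl⟩ := h; rfl⟩ with hS
  have hSmem : ∀ i k, (i, k) ∈ S ↔ (c i).coeff k ≠ 0 := by
    intro i k
    rw [hS, Finset.mem_map]
    constructor
    · rintro ⟨⟨i', k'⟩, hx, hxe⟩
      simp only [Function.Embedding.coeFn_mk, Prod.mk.injEq] at hxe
      obtain ⟨rfl, rfl⟩ := hxe
      rw [Finset.mem_sigma] at hx
      exact Polynomial.mem_support_iff.mp hx.2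
    · intro h
      exact ⟨⟨i, k⟩, Finset.mem_sigma.mpr ⟨Finset.mem_univ _, Polynomial.mem_support_iff.mpr h⟩,
        rfl⟩
  have hSne : S.Nonempty := by
    obtain ⟨i, hi⟩ := hc
    obtain ⟨k, hk⟩ := Polynomial.support_nonempty.mpr hi
    exact ⟨(i, k), (hSmem i k).mpr (Polynomial.mem_support_iff.mp hk)⟩
  obtain ⟨⟨i₀, k₀⟩, h₀S, hmin⟩ :=
    Finset.exists_min_image S (fun x => padicValRat ℓ ((c x.1).coeff x.2)) hSne
  set v₀ := padicValRat ℓ ((c i₀).coeff k₀) with hv₀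
  set u : ℚ := (ℓ : ℚ) ^ (-v₀) with hu
  have hu0 : u ≠ 0 := zpow_ne_zero _ hℓq
  have hval : ∀ i k, (c i).coeff k ≠ 0 →
      padicValRat ℓ (u * (c i).coeff k) = padicValRat ℓ ((c i).coeff k) - v₀ := by
    intro i k h
    rw [padicValRat.mul hu0 h, hu, padicValRat.zpow, padicValRat.self hp.one_lt]
    ring
  have hmem : ∀ i k, u * (c i).coeff k ∈ GaloisRep.ratLocalizedAt ℓ := by
    intro i k
    by_cases h : (c i).coeff k = 0
    · rw [h, mul_zero]
      exact (GaloisRep.ratLocalizedAt ℓ).zero_mem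
    · apply mem_ratLocalizedAt_of_padicValRat_nonneg
      rw [hval i k h]
      have := hmin (i, k) ((hSmem i k).mpr h)
      simp only at this
      omega
  have hcoeffs : ∀ i, (↑(C u * c i).coeffs : Set ℚ) ⊆ (GaloisRep.ratLocalizedAt ℓ : Set ℚ) := by
    intro i x hx
    obtain ⟨k, -, rfl⟩ := Polynomial.mem_coeffs_iff.mp hx
    rw [Polynomial.coeff_C_mul]
    exact hmem i k
  refine ⟨u, fun i => (C u * c i).toSubring _ (hcoeffs i), hu0, fun i => ?_, i₀, ?_⟩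
  · exact Polynomial.map_toSubring _ _ _
  · intro h0
    have h1 := congrArg (fun P => P.coeff k₀) h0
    simp only [Polynomial.coeff_map, Polynomial.coeff_zero] at h1
    have hc0 : (c i₀).coeff k₀ ≠ 0 := (hSmem i₀ k₀).mp h₀S
    refine zlResidue_ne_zero_of_padicValRat_eq_zero ℓ (a := ((C u * c i₀).toSubring _ (hcoeffs i₀)).coeff k₀) ?_ ?_ h1
    · intro h
      have h2 := congrArg (fun x : ℤℓ => (x : ℚ)) h
      simp only [Polynomial.coeff_toSubring, Polynomial.coeff_C_mul] at h2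
      exact mul_ne_zero hu0 hc0 h2
    · rw [Polynomial.coeff_toSubring, Polynomial.coeff_C_mul, hval i₀ k₀ hc0]
      ring

/-! ### Polynomials in `j` and their reductions -/

theorem zlIota_eval₂ (P : ℤℓ[X]) :
    zlIota ℓ (P.eval₂ (HahnSeries.C : ℤℓ →+* LaurentSeries ℤℓ) (jqModC ℤℓ)) =
      (P.map (GaloisRep.ratLocalizedAt ℓ).subtype).eval₂
        (HahnSeries.C : ℚ →+* LaurentSeries ℚ) jq := by
  rw [Polynomial.hom_eval₂, Polynomial.eval₂_map, ← ChartBaseAux.jq_eq_zlIota ℓ]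
  congr 1
  refine RingHom.ext fun r => ?_
  simp only [RingHom.comp_apply]
  exact coeffMap_HC _ r

theorem zlRed_eval₂ (P : ℤℓ[X]) :
    zlRed ℓ (P.eval₂ (HahnSeries.C : ℤℓ →+* LaurentSeries ℤℓ) (jqModC ℤℓ)) =
      (P.map (zlResidue ℓ)).eval₂
        (HahnSeries.C : ZMod ℓ →+* LaurentSeries (ZMod ℓ)) (jqModC (ZMod ℓ)) := by
  rw [Polynomial.hom_eval₂, Polynomial.eval₂_map]
  have h : zlRed ℓ (jqModC ℤℓ) = jqModC (ZMod ℓ) := coeffMap_jqModC _
  rw [h]
  congr 1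
  refine RingHom.ext fun r => ?_
  simp only [RingHom.comp_apply]
  exact coeffMap_HC _ r

theorem eval₂_jqModC_mem_resField (Q : (ZMod ℓ)[X]) :
    Q.eval₂ (HahnSeries.C : ZMod ℓ →+* LaurentSeries (ZMod ℓ)) (jqModC (ZMod ℓ)) ∈ resField ℓ := by
  rw [Polynomial.eval₂_eq_sum_range]
  exact (resField ℓ).sum_mem fun i _ => (resField ℓ).mul_mem (C_zmod_mem_subfield ℓ _ _)
    ((resField ℓ).pow_mem (Subfield.subset_closure rfl) _)

theorem eval₂_jqModC_ne_zero {Q : (ZMod ℓ)[X]} (hQ : Q ≠ 0) :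
    Q.eval₂ (HahnSeries.C : ZMod ℓ →+* LaurentSeries (ZMod ℓ)) (jqModC (ZMod ℓ)) ≠ 0 := by
  intro h
  apply hQ
  refine transcendental_iff.mp (ChartBaseAux.transcendental_jqModC (ZMod ℓ)) Q ?_
  rw [Polynomial.aeval_def]
  have : algebraMap (ZMod ℓ) (LaurentSeries (ZMod ℓ)) = HahnSeries.C :=
    RingHom.ext fun r => algebraMap_laurentSeries_eq_C r
  rw [this]
  exact h

/-! ### `f ≤ n` -/

/-- **`f ≤ n`.** If any `D + 1` elements of the subfield `T ⊆ ℚ((q))` are linearly dependent over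
`ℚ[j]`, then any `D + 1` elements of its residue field are linearly dependent over `𝔽_ℓ(j̄)`. -/
theorem exists_dependent_res (T : Subfield (LaurentSeries ℚ)) (D : ℕ)
    (hT : ∀ x : Fin (D + 1) → LaurentSeries ℚ, (∀ i, x i ∈ T) →
      ∃ c : Fin (D + 1) → ℚ[X], (∃ i, c i ≠ 0) ∧
        ∑ i, (c i).eval₂ (HahnSeries.C : ℚ →+* LaurentSeries ℚ) jq * x i = 0)
    (y : Fin (D + 1) → LaurentSeries (ZMod ℓ)) (hy : ∀ i, y i ∈ resSubfield ℓ T) :
    ∃ g : Fin (D + 1) → LaurentSeries (ZMod ℓ), (∀ i, g i ∈ resField ℓ) ∧ (∃ i, g i ≠ 0) ∧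
      ∑ i, g i * y i = 0 := by
  classical
  choose x hxT hxy using hy
  obtain ⟨c, hc, hsum⟩ := hT (fun i => (x i : LaurentSeries ℚ)) hxT
  obtain ⟨u, c', hu, hc', i₁, hi₁⟩ := exists_scale_family ℓ c hc
  set e : Fin (D + 1) → LaurentSeries ℤℓ := fun i =>
    (c' i).eval₂ (HahnSeries.C : ℤℓ →+* LaurentSeries ℤℓ) (jqModC ℤℓ) with he
  refine ⟨fun i => zlRed ℓ (e i), fun i => ?_, ⟨i₁, ?_⟩, ?_⟩
  · show zlRed ℓ ((c' i).eval₂ (HahnSeries.C : ℤℓ →+* LaurentSeries ℤℓ) (jqModC ℤℓ)) ∈ resField ℓ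
    rw [zlRed_eval₂]
    exact eval₂_jqModC_mem_resField ℓ _
  · show zlRed ℓ ((c' i₁).eval₂ (HahnSeries.C : ℤℓ →+* LaurentSeries ℤℓ) (jqModC ℤℓ)) ≠ 0
    rw [zlRed_eval₂]
    exact eval₂_jqModC_ne_zero ℓ hi₁
  · have h1 : (∑ i, (⟨zlIota ℓ (e i), zlIota_mem_gaussSubring ℓ _⟩ : gaussSubring ℓ) * x i) = 0 := by
      apply Subtype.ext
      rw [Subring.coe_zero, ← mul_zero (HahnSeries.C u : LaurentSeries ℚ), ← hsum, Finset.mul_sum]
      push_cast
      refine Finset.sum_congr rfl fun i _ => ?_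
      show zlIota ℓ ((c' i).eval₂ (HahnSeries.C : ℤℓ →+* LaurentSeries ℤℓ) (jqModC ℤℓ)) *
        (x i : LaurentSeries ℚ) = _
      rw [zlIota_eval₂, hc' i, Polynomial.eval₂_mul, Polynomial.eval₂_C, mul_assoc]
    have h2 := congrArg (gaussRes ℓ) h1
    rw [map_zero, map_sum] at h2
    rw [← h2]
    refine Finset.sum_congr rfl fun i _ => ?_
    rw [map_mul, gaussRes_zlIota, hxy]

/-! ### From a degree bound to polynomial dependence -/

section Degree

open IntermediateField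

/-- Generic: if `[L : K(α)] ≤ D` then any `D + 1` elements of `L` satisfy a nontrivial linear
relation with coefficients in `K[α]`. -/
theorem exists_poly_dependent_of_finrank_simple {K L : Type*} [Field K] [Field L] [Algebra K L]
    (α : L) (D : ℕ) [FiniteDimensional ↥K⟮α⟯ L] (hD : Module.finrank ↥K⟮α⟯ L ≤ D)
    (x : Fin (D + 1) → L) :
    ∃ c : Fin (D + 1) → K[X], (∃ i, c i ≠ 0) ∧ ∑ i, aeval α (c i) * x i = 0 := by
  classical
  have hnli : ¬ LinearIndependent ↥K⟮α⟯ x := by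
    intro hli
    have := hli.fintype_card_le_finrank
    rw [Fintype.card_fin] at this
    omega
  rw [Fintype.not_linearIndependent_iff] at hnli
  obtain ⟨a, hsum, i₀, hi₀⟩ := hnli
  -- write `a i = r i (α) / s i (α)` with `s i (α) ≠ 0`
  have hrs : ∀ i, ∃ r s : K[X], aeval α s ≠ 0 ∧ (a i : L) * aeval α s = aeval α r := by
    intro i
    obtain ⟨r, s, h⟩ := (IntermediateField.mem_adjoin_simple_iff K (a i : L)).mp (a i).2
    by_cases hs : aeval α s = 0
    · refine ⟨0, 1, by simp, ?_⟩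
      rw [h, hs, div_zero, zero_mul, map_zero]
    · exact ⟨r, s, hs, by rw [h, div_mul_cancel₀ _ hs]⟩
  choose r s hs hrs using hrs
  refine ⟨fun i => r i * ∏ k ∈ Finset.univ.erase i, s k, ⟨i₀, ?_⟩, ?_⟩
  · intro h0
    have h1 := congrArg (aeval α) h0
    rw [map_mul, map_zero, ← hrs, map_prod] at h1
    have h2 : (a i₀ : L) ≠ 0 := fun h => hi₀ (Subtype.ext h)
    have h3 : ∏ k ∈ Finset.univ.erase i₀, aeval α (s k) ≠ 0 :=
      Finset.prod_ne_zero_iff.mpr fun k _ => hs k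
    exact mul_ne_zero (mul_ne_zero h2 (hs i₀)) h3 h1
  · have hS : ∀ i, aeval α (r i * ∏ k ∈ Finset.univ.erase i, s k) =
        (a i : L) * ∏ k, aeval α (s k) := by
      intro i
      rw [map_mul, ← hrs, map_prod, mul_assoc,
        Finset.mul_prod_erase Finset.univ (fun k => aeval α (s k)) (Finset.mem_univ i)]
    simp only [hS]
    have h4 : ∑ i, (a i : L) * (∏ k, aeval α (s k)) * x i =
        (∏ k, aeval α (s k)) * ∑ i, (a i : L) * x i := by
      rw [Finset.mul_sum]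
      exact Finset.sum_congr rfl fun i _ => by ring
    rw [h4]
    have h5 : ∑ i, (a i : L) * x i = 0 := by
      rw [← hsum]
      exact Finset.sum_congr rfl fun i _ => by rw [IntermediateField.smul_def, smul_eq_mul]
    rw [h5, mul_zero]

/-- The hypothesis of `exists_dependent_res` from `[F₀ : ℚ(j)] ≤ D`. -/
theorem exists_poly_dependent_of_finrank (F₀ : IntermediateField ℚ (LaurentSeries ℚ))
    (hj : jq ∈ F₀) (D : ℕ) [FiniteDimensional ↥ℚ⟮(⟨jq, hj⟩ : ↥F₀)⟯ ↥F₀]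
    (hD : Module.finrank ↥ℚ⟮(⟨jq, hj⟩ : ↥F₀)⟯ ↥F₀ ≤ D)
    (x : Fin (D + 1) → LaurentSeries ℚ) (hx : ∀ i, x i ∈ F₀) :
    ∃ c : Fin (D + 1) → ℚ[X], (∃ i, c i ≠ 0) ∧
      ∑ i, (c i).eval₂ (HahnSeries.C : ℚ →+* LaurentSeries ℚ) jq * x i = 0 := by
  obtain ⟨c, hc, hsum⟩ := exists_poly_dependent_of_finrank_simple (K := ℚ) (⟨jq, hj⟩ : ↥F₀) D hD
    (fun i => (⟨x i, hx i⟩ : ↥F₀))
  refine ⟨c, hc, ?_⟩
  have h1 := congrArg (fun z : ↥F₀ => (z : LaurentSeries ℚ)) hsum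
  simp only [IntermediateField.coe_sum, IntermediateField.coe_mul, IntermediateField.coe_zero]
    at h1
  rw [← h1]
  refine Finset.sum_congr rfl fun i _ => ?_
  congr 1
  rw [Polynomial.aeval_def]
  have h := Polynomial.hom_eval₂ (c i) (algebraMap ℚ ↥F₀) (algebraMap ↥F₀ (LaurentSeries ℚ))
    (⟨jq, hj⟩ : ↥F₀)
  rw [IntermediateField.algebraMap_apply, IntermediateField.algebraMap_apply] at h
  rw [h]
  congr 1

end Degree


/-! ### `q ↦ q^p` and the Gauss ring -/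

variable (p : ℕ) [NeZero p]

omit hℓ in
theorem qExpand_zlIota (a : LaurentSeries ℤℓ) :
    qExpand ℚ p (zlIota ℓ a) = zlIota ℓ (qExpand ℤℓ p a) :=
  (coeffMap_qExpand _ p a).symm

theorem qExpand_zlRed (a : LaurentSeries ℤℓ) :
    qExpand (ZMod ℓ) p (zlRed ℓ a) = zlRed ℓ (qExpand ℤℓ p a) :=
  (coeffMap_qExpand _ p a).symm

omit hℓ in
theorem isZlFraction_qExpand {x : LaurentSeries ℚ} (hx : IsZlFraction ℓ x) :
    IsZlFraction ℓ (qExpand ℚ p x) := by
  obtain ⟨a, b, hb, hab⟩ := hx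
  refine ⟨qExpand ℤℓ p a, qExpand ℤℓ p b, ?_, ?_⟩
  · intro h
    exact hb (qExpand_injective p (by rw [h, map_zero]))
  · rw [← qExpand_zlIota, ← qExpand_zlIota, ← map_mul, hab]

theorem qExpand_mem_gaussSubring {x : LaurentSeries ℚ} (hx : x ∈ gaussSubring ℓ) :
    qExpand ℚ p x ∈ gaussSubring ℓ := by
  obtain ⟨a, b, hb, hab⟩ := hx
  refine ⟨qExpand ℤℓ p a, qExpand ℤℓ p b, ?_, ?_⟩
  · rw [← qExpand_zlRed]
    intro h
    exact hb (qExpand_injective p (by rw [h, map_zero]))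
  · rw [← qExpand_zlIota, ← qExpand_zlIota, ← map_mul, hab]

theorem gaussRes_qExpand (x : gaussSubring ℓ) :
    gaussRes ℓ ⟨qExpand ℚ p x, qExpand_mem_gaussSubring ℓ p x.2⟩ =
      qExpand (ZMod ℓ) p (gaussRes ℓ x) := by
  obtain ⟨a, b, hb, hab⟩ := (mem_gaussSubring_iff ℓ).mp x.2
  have hb' : zlRed ℓ (qExpand ℤℓ p b) ≠ 0 := by
    rw [← qExpand_zlRed]
    intro h
    exact hb (qExpand_injective p (by rw [h, map_zero]))
  rw [gaussRes_eq ℓ x hb hab, gaussRes_eq ℓ _ (a := qExpand ℤℓ p a) (b := qExpand ℤℓ p b) hb'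
    (by
      show qExpand ℚ p (x : LaurentSeries ℚ) * _ = _
      rw [← qExpand_zlIota, ← qExpand_zlIota, ← map_mul, hab]),
    map_div₀, qExpand_zlRed, qExpand_zlRed]

/-- `q ↦ q^p` reflects Gauss integrality on fractions. -/
theorem mem_gaussSubring_of_qExpand_mem {x : LaurentSeries ℚ} (hx : IsZlFraction ℓ x)
    (h : qExpand ℚ p x ∈ gaussSubring ℓ) : x ∈ gaussSubring ℓ := by
  rcases mem_or_inv_mem_gaussSubring ℓ hx with h1 | h1
  · exact h1
  by_cases hx0 : x = 0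
  · rw [hx0]
    exact (gaussSubring ℓ).zero_mem
  by_cases hr : gaussRes ℓ ⟨x⁻¹, h1⟩ = 0
  · exfalso
    have h2 := gaussRes_qExpand ℓ p ⟨x⁻¹, h1⟩
    rw [hr, map_zero] at h2
    have h3 : (⟨qExpand ℚ p x, h⟩ : gaussSubring ℓ) *
        ⟨qExpand ℚ p x⁻¹, qExpand_mem_gaussSubring ℓ p h1⟩ = 1 := by
      apply Subtype.ext
      rw [Subring.coe_mul, Subring.coe_one]
      show qExpand ℚ p x * qExpand ℚ p x⁻¹ = 1
      rw [← map_mul, mul_inv_cancel₀ hx0, map_one]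
    have h4 := congrArg (gaussRes ℓ) h3
    rw [map_mul, h2, mul_zero, map_one] at h4
    exact zero_ne_one h4
  · have := inv_mem_gaussSubring_of_gaussRes_ne_zero ℓ ⟨x⁻¹, h1⟩ hr
    simpa using this

theorem qExpand_mem_gaussSubring_iff {x : LaurentSeries ℚ} (hx : IsZlFraction ℓ x) :
    qExpand ℚ p x ∈ gaussSubring ℓ ↔ x ∈ gaussSubring ℓ :=
  ⟨mem_gaussSubring_of_qExpand_mem ℓ p hx, qExpand_mem_gaussSubring ℓ p⟩

/-! ### The valuation subring cut out by a ring hom into `ℚ((q))` -/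

/-- The valuation subring `{y | i y ∈ O}` of a field `L` mapping to fractions in `ℚ((q))`. -/
def gaussValSub {L : Type*} [Field L] (i : L →+* LaurentSeries ℚ)
    (hfr : ∀ y : L, IsZlFraction ℓ (i y)) : ValuationSubring L :=
  { (gaussSubring ℓ).comap i with
    mem_or_inv_mem' := fun y => by
      have := mem_or_inv_mem_gaussSubring ℓ (hfr y)
      rw [← map_inv₀] at this
      exact this }

theorem mem_gaussValSub {L : Type*} [Field L] (i : L →+* LaurentSeries ℚ)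
    (hfr : ∀ y : L, IsZlFraction ℓ (i y)) {y : L} :
    y ∈ gaussValSub ℓ i hfr ↔ i y ∈ gaussSubring ℓ := Iff.rfl

/-- units of the Gauss ring have nonzero residue -/
theorem gaussRes_ne_zero_of_inv_mem (x : gaussSubring ℓ) (hx0 : (x : LaurentSeries ℚ) ≠ 0)
    (hinv : (x : LaurentSeries ℚ)⁻¹ ∈ gaussSubring ℓ) : gaussRes ℓ x ≠ 0 := by
  intro h
  have h3 : x * ⟨(x : LaurentSeries ℚ)⁻¹, hinv⟩ = 1 := by
    apply Subtype.ext
    rw [Subring.coe_mul, Subring.coe_one]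
    exact mul_inv_cancel₀ hx0
  have h4 := congrArg (gaussRes ℓ) h3
  rw [map_mul, h, zero_mul, map_one] at h4
  exact zero_ne_one h4

end Fermat.Agent.DS.IG

end
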