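/-
PROGRAMME III (S48), X1-IRR, node IRR-3 (helper19): THE HECKE BRIDGE, abstract form.

`K ⊆ L` fields of modular functions (think `K = K1 M`, `L = K1Lev M p`), realised in `ℚ((q))` by
`iK`, `iL` (expansion at `∞`), with a second realisation `ι'` of `L` (expansion at the other cusp
over `∞`) such that `ι' ∘ α = (q ↦ q^p) ∘ iK` and `ι' (β f) = iK (δ f)`, where `β f = f(q^p)` and
`δ` is the diamond operator `⟨p⟩`.  If `[L : K] ≤ p + 1`, `[K : ℚ(j)] ≤ D < (p+1) ψ(M)` and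
`K ∋ j(q^d)` (`d ∣ M`), then `δ` preserves the `ℓ`-Gauss valuation ring of `K`:
  `iK f ∈ gaussSubring ℓ → iK (δ f) ∈ gaussSubring ℓ`.

Proof: the residue jump (`ResidueJump.lean`) gives `p + 1` elements of the valuation ring
`O₁ = iL⁻¹(O)` of `L` with residues independent over the residue field of `K`; by IRR-1
(`DS/X1/Irr/UniqueExt.lean`, helper29) `O₁ = O₂ := ι'⁻¹(O)`; apply this to `β f`.
-/
import Mathlib
import Fermat.Agent.DS.IG.GaussField
import Fermat.Agent.DS.IG.ResidueJump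
import Fermat.Agent.DS.X1.Irr.UniqueExt

set_option autoImplicit false

noncomputable section

namespace Fermat.Agent.DS.IG

open ModularCurve Polynomial Fermat.Agent.Igusa Fermat.Agent.DS.X1.Irr

variable (ℓ : ℕ) [hℓ : Fact ℓ.Prime]

section Bridge

variable {K L : Type*} [Field K] [Field L] [Algebra K L] [FiniteDimensional K L]

/-- **The Hecke bridge (IRR-3).** -/
theorem diamond_mem_gaussSubring (M p : ℕ) [NeZero M] [NeZero p] (hp : p.Prime) (hpM : ¬ p ∣ M)
    (hpℓ : p ≠ ℓ) (hℓM : ¬ ℓ ∣ M)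
    (iK : K →+* LaurentSeries ℚ) (iL : L →+* LaurentSeries ℚ)
    (hiKL : ∀ f : K, iL (algebraMap K L f) = iK f)
    (hfrL : ∀ y : L, IsZlFraction ℓ (iL y))
    (ι' : L →+* LaurentSeries ℚ) (hfr' : ∀ y : L, IsZlFraction ℓ (ι' y))
    (hι'α : ∀ f : K, ι' (algebraMap K L f) = qExpand ℚ p (iK f))
    (β : K → L) (hβ : ∀ f : K, iL (β f) = qExpand ℚ p (iK f))
    (δ : K → K) (hδ : ∀ f : K, ι' (β f) = iK (δ f))
    (hfin : Module.finrank K L ≤ p + 1)
    (hj : ∀ (d : ℕ) [NeZero d], d ∣ M → ∃ f : K, iK f = qExpand ℚ d jq)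
    (D : ℕ)
    (hdepK : ∀ x : Fin (D + 1) → K, ∃ c : Fin (D + 1) → ℚ[X], (∃ i, c i ≠ 0) ∧
      ∑ i, (c i).eval₂ (HahnSeries.C : ℚ →+* LaurentSeries ℚ) jq * iK (x i) = 0)
    (hD : D < (p + 1) * dedekindPsi M)
    (f : K) (hf : iK f ∈ gaussSubring ℓ) : iK (δ f) ∈ gaussSubring ℓ := by
  classical
  have hfrK : ∀ f : K, IsZlFraction ℓ (iK f) := fun f => hiKL f ▸ hfrL _
  -- the residue field of `K`
  set k : Subfield (LaurentSeries (ZMod ℓ)) := resSubfield ℓ iK.fieldRange with hk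
  have hkj : ∀ (d : ℕ) [NeZero d], d ∣ M → jqNModC (ZMod ℓ) d ∈ k := by
    intro d _ hd
    obtain ⟨fd, hfd⟩ := hj d hd
    exact jqN_mem_resSubfield ℓ d (RingHom.mem_fieldRange.mpr ⟨fd, hfd⟩)
  have hdep : ∀ x : Fin (D + 1) → LaurentSeries (ZMod ℓ), (∀ i, x i ∈ k) →
      ∃ g : Fin (D + 1) → LaurentSeries (ZMod ℓ), (∀ i, g i ∈ resField ℓ) ∧ (∃ i, g i ≠ 0) ∧
        ∑ i, g i * x i = 0 := by
    refine exists_dependent_res ℓ iK.fieldRange D ?_
    intro x hx
    have hx' : ∀ i, ∃ y : K, iK y = x i := fun i => RingHom.mem_fieldRange.mp (hx i)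
    choose y hy using hx'
    obtain ⟨c, hc, hsum⟩ := hdepK y
    exact ⟨c, hc, by simpa only [hy] using hsum⟩
  obtain ⟨d, hdp0, hdM, hjump⟩ :=
    exists_linearIndependent_gamma' ℓ M p hp hpM hpℓ hℓM D k hkj hdep hD
  have hd0 : NeZero d := ⟨fun h => hdp0.out (by rw [h, zero_mul])⟩
  obtain ⟨fd, hfd⟩ := hj d hdM
  -- the two valuation rings of `L`
  set O₁ : ValuationSubring L := gaussValSub ℓ iL hfrL with hO₁
  set O₂ : ValuationSubring L := gaussValSub ℓ ι' hfr' with hO₂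
  -- `γ = β (j(q^d))`
  set y : L := β fd with hy
  have hiLy : iL y = qExpand ℚ (d * p) jq := by
    rw [hy, hβ, hfd, ModularCurve.qExpand_qExpand d p jq, qExpand_congr (mul_comm p d)]
  obtain ⟨hγmem, hγres⟩ := gaussRes_jqN ℓ (d * p)
  -- unit combinations
  have hcoe : ∀ c : K, algebraMap K L c ∈ O₁ ↔ iK c ∈ gaussSubring ℓ := fun c => by
    rw [hO₁, mem_gaussValSub, hiKL]
  have hUC : UnitCombinations K O₁ (fun i : Fin (p + 1) => y ^ (i : ℕ)) := by
    intro c hc ⟨i₀, hi₀, hi₀inv⟩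
    have hcO : ∀ i, iK (c i) ∈ gaussSubring ℓ := fun i => (hcoe _).mp (hc i)
    set z : L := ∑ i, c i • y ^ (i : ℕ) with hz
    have hiLz : iL z = ∑ i, iK (c i) * (qExpand ℚ (d * p) jq) ^ (i : ℕ) := by
      rw [hz, map_sum]
      refine Finset.sum_congr rfl fun i _ => ?_
      rw [Algebra.smul_def, map_mul, hiKL, map_pow, hiLy]
    have hzmem : iL z ∈ gaussSubring ℓ := by
      rw [hiLz]
      exact (gaussSubring ℓ).sum_mem fun i _ =>
        (gaussSubring ℓ).mul_mem (hcO i) ((gaussSubring ℓ).pow_mem hγmem _)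
    have hres : gaussRes ℓ ⟨iL z, hzmem⟩ =
        ∑ i, gaussRes ℓ ⟨iK (c i), hcO i⟩ * jqNModC (ZMod ℓ) (d * p) ^ (i : ℕ) := by
      have h1 : (⟨iL z, hzmem⟩ : gaussSubring ℓ) =
          ∑ i, (⟨iK (c i), hcO i⟩ : gaussSubring ℓ) * ⟨_, hγmem⟩ ^ (i : ℕ) := by
        apply Subtype.ext
        show iL z = _
        rw [hiLz]
        push_cast
        rfl
      rw [h1, map_sum]
      refine Finset.sum_congr rfl fun i _ => ?_
      rw [map_mul, map_pow, hγres]
    have hresne : gaussRes ℓ ⟨iL z, hzmem⟩ ≠ 0 := by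
      intro h0
      rw [hres] at h0
      have h1 := hjump (fun i => gaussRes ℓ ⟨iK (c i), hcO i⟩)
        (fun i => gaussRes_mem_resSubfield ℓ _ (RingHom.mem_fieldRange.mpr ⟨c i, rfl⟩)) h0 i₀
      have hinv : (iK (c i₀))⁻¹ ∈ gaussSubring ℓ := by
        have := (hcoe _).mp hi₀inv
        rwa [map_inv₀] at this
      exact gaussRes_ne_zero_of_inv_mem ℓ ⟨iK (c i₀), hcO i₀⟩
        ((map_ne_zero iK).mpr hi₀) hinv h1
    have hz0 : z ≠ 0 := by
      intro h
      apply hresne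
      have : (⟨iL z, hzmem⟩ : gaussSubring ℓ) = 0 :=
        Subtype.ext (by show iL z = 0; rw [h, map_zero])
      rw [this, map_zero]
    refine ⟨hz0, ?_⟩
    rw [hO₁, mem_gaussValSub, map_inv₀]
    exact inv_mem_gaussSubring_of_gaussRes_ne_zero ℓ ⟨iL z, hzmem⟩ hresne
  have hcard : Fintype.card (Fin (p + 1)) = Module.finrank K L := by
    have h1 := (linearIndependent_of_unitCombinations hUC).fintype_card_le_finrank
    rw [Fintype.card_fin] at h1 ⊢
    omega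
  have hcomap : O₁.comap (algebraMap K L) = O₂.comap (algebraMap K L) := by
    ext c
    rw [ValuationSubring.mem_comap, ValuationSubring.mem_comap, hO₁, hO₂, mem_gaussValSub,
      mem_gaussValSub, hiKL, hι'α, qExpand_mem_gaussSubring_iff ℓ p (hfrK c)]
  have hymem : ∀ i : Fin (p + 1), y ^ (i : ℕ) ∈ O₁ := by
    intro i
    have hyO : y ∈ O₁ := by
      rw [hO₁, mem_gaussValSub, hiLy]
      exact hγmem
    exact pow_mem hyO _
  have hO : O₁ = O₂ := eq_of_unitCombinations O₂ hUC hcard hymem hcomap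
  -- conclusion
  have h1 : β f ∈ O₁ := by
    rw [hO₁, mem_gaussValSub, hβ]
    exact qExpand_mem_gaussSubring ℓ p hf
  rw [hO, hO₂, mem_gaussValSub, hδ] at h1
  exact h1

end Bridge

end Fermat.Agent.DS.IG

end
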