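/-
PROGRAMME III (S48), X1-IRR, "D = G" (helper19): EVERY DIAMOND OPERATOR PRESERVES THE `ℓ`-GAUSS
VALUATION RING OF `K1 M` (`ℓ ∤ M`).

Instantiation of the abstract Hecke bridge `DS/IG/Bridge.diamond_mem_gaussSubring` at
`K = K1 M`, `L = K1Lev M p` (algebra structure `alphaOne`), `iK`, `iL` = the inclusions into `ℚ((q))`,
`ι' = atkinEmbQ` (helper1, IRR-4), `β = betaOne`, `δ = diamondQ ⟨p⟩` (helper2, AN-4), with the prime
`p ≡ d (mod M)`, `p ≠ ℓ`, `p` large, chosen by Dirichlet (`DS/Neben/PrimeInClass`).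

Inputs kept as hypotheses:
* `An : WeberAnalytic M` (AN-1: the analytic Weber functions, `ZMod M`-indexed shape);
* `hfin` : `[K1Lev M p : K1 M] ≤ p + 1` (AN-5, helper15 `finrank_K1Lev_le_of_weber`; discharged below
  from the cusp bounds `hb`);
* `hdepK` : any `D + 1` elements of `K1 M` are dependent over `ℚ[j]` (AN-3: `[K1 M : ℚ(j)] ≤ D`,
  cf. `exists_poly_dependent_of_finrank`).
-/
import Mathlib
import Fermat.Agent.DS.IG.Bridge
import Fermat.Agent.DS.X1.Diamond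
import Fermat.Agent.DS.X1.LevDegreeInst
import Fermat.Agent.DS.X1.ChartK1
import Fermat.Agent.DS.ES.AtkinEmbeddingQ
import Fermat.Agent.DS.Neben.PrimeInClass

set_option autoImplicit false

noncomputable section

namespace Fermat.Agent.DS.IG

open ModularCurve Polynomial Fermat.Agent.Igusa Fermat.Agent.DS.X1 Fermat.Agent.DS.ES
open UpperHalfPlane CongruenceSubgroup
open scoped MatrixGroups

local notation "Δ" => ModularForm.discriminant

/-! ### fractions -/

section Fractions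

variable (M p ℓ : ℕ) [NeZero M] [NeZero p] [hℓ : Fact ℓ.Prime]

theorem isZlFraction_of_mem_K1 {x : LaurentSeries ℚ} (hx : x ∈ K1 M) : IsZlFraction ℓ x :=
  ChartK1.isZlField_K1 M ℓ x hx

theorem isZlFraction_of_mem_K1Lev {x : LaurentSeries ℚ} (hx : x ∈ K1Lev M p) :
    IsZlFraction ℓ x := by
  have : NeZero (M * p) := ⟨mul_ne_zero (NeZero.ne M) (NeZero.ne p)⟩
  refine Chart.isZlField_adjoin ℓ _ ?_ x hx
  rintro y ((hy | hy) | ⟨z, hz, rfl⟩)
  · exact isZlFraction_of_mem_full ℓ (M * p) (IntermediateField.subset_adjoin ℚ _ hy)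
  · exact isZlFraction_of_mem_K1 M ℓ hy
  · exact isZlFraction_qExpand ℓ p (isZlFraction_of_mem_K1 M ℓ hz)

omit [NeZero M] in
theorem dedekindPsi_pos' (hM : M ≠ 0) : 0 < dedekindPsi M := by
  unfold dedekindPsi
  have h1 : (1 : ℕ) ∈ M.divisors.filter Squarefree := by
    simp [hM]
  calc 0 < M / 1 := by simpa using Nat.pos_of_ne_zero hM
    _ ≤ _ := Finset.single_le_sum (f := fun d => M / d) (fun _ _ => Nat.zero_le _) h1

end Fractions

/-! ### the diamond as a ring hom into `ℚ((q))` -/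

section Diamond

variable {M : ℕ} [NeZero M] (An : WeberAnalytic M)

/-- the `WeberAnData` (helper23 `Psi1.lean`) of a `WeberAnalytic` (helper1 `AtkinEmbedding.lean`) -/
def anData : WeberAnData M := WeberAnData.ofZMod An.W An.isQExp An.slash

/-- the diamond `⟨d⟩` followed by the inclusion `K1 M ⊂ ℚ((q))` -/
def diamondHom (d : (ZMod M)ˣ) : ↥(K1 M) →+* LaurentSeries ℚ :=
  (SubringClass.subtype (K1 M)).comp
    ((diamondQ (anData An) d : ↥(K1 M) ≃ₐ[ℚ] ↥(K1 M)) : ↥(K1 M) →+* ↥(K1 M))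

theorem diamondHom_apply (d : (ZMod M)ˣ) (x : ↥(K1 M)) :
    diamondHom An d x = ((diamondQ (anData An) d x : ↥(K1 M)) : LaurentSeries ℚ) := rfl

theorem diamondHom_j (d : (ZMod M)ˣ) (s : LaurentSeries ℚ) (hs : s ∈ divisorExpansions M) :
    diamondHom An d ⟨s, IntermediateField.subset_adjoin ℚ _ (Or.inl hs)⟩ = s := by
  rw [diamondHom_apply, diamondQ_fixes_F0 (anData An) d _
    (IntermediateField.subset_adjoin ℚ _ hs)]

theorem diamondHom_weber (d : (ZMod M)ˣ) {a b : ℕ} (ha : 0 < a) (haM : a < M) (hb : 0 < b)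
    (hbM : b < M) (hab : (b : ZMod M) = (a : ZMod M) * (d : ZMod M)) :
    diamondHom An d ⟨weberQ M a, weberQ_mem_K1 M ha haM⟩ = weberQ M b := by
  rw [diamondHom_apply, diamondQ_weberQ (anData An) d ha haM hb hbM hab]

end Diamond

/-! ### the second embedding has values in the `ℤ_(ℓ)`-fractions -/

section Atkin

variable (M p ℓ : ℕ) [NeZero M] [hp : Fact p.Prime] [NeZero p] [hℓ : Fact ℓ.Prime] (u v : ℤ)
  (huv : u * M + v * p = 1) (An : WeberAnalytic M)

omit hℓ in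
theorem atkinEmbQ_congr {s s' : LaurentSeries ℚ} (h : s = s') (hs : s ∈ K1Lev M p)
    (hs' : s' ∈ K1Lev M p) :
    atkinEmbQ M p u v huv An ⟨s, hs⟩ = atkinEmbQ M p u v huv An ⟨s', hs'⟩ := by
  subst h
  rfl

include huv in
omit hℓ [NeZero p] [NeZero M] in
theorem not_dvd_of_bezout : ¬ p ∣ M := by
  intro h
  have h1 : (p : ℤ) ∣ u * M + v * p :=
    dvd_add (Dvd.dvd.mul_left (Int.natCast_dvd_natCast.mpr h) u) (dvd_mul_left _ _)
  rw [huv] at h1
  exact hp.out.not_dvd_one (Int.natCast_dvd_natCast.mp (by simpa using h1))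

/-- the unit `p mod M` -/
def unitP : (ZMod M)ˣ :=
  ZMod.unitOfCoprime p ((Nat.Prime.coprime_iff_not_dvd hp.out).mpr (not_dvd_of_bezout M p u v huv))

omit hℓ [NeZero p] [NeZero M] in
theorem coe_unitP : ((unitP M p u v huv : (ZMod M)ˣ) : ZMod M) = (p : ZMod M) :=
  ZMod.coe_unitOfCoprime p _

omit hℓ in
/-- `ι' ∘ β = ⟨p⟩`. -/
theorem atkinEmbQ_betaOne (x : ↥(K1 M)) :
    atkinEmbQ M p u v huv An (betaOne M p x) = diamondHom An (unitP M p u v huv) x := by
  refine atkinEmbQ_qExpand M p u v huv An (diamondHom An (unitP M p u v huv)) ?_ ?_ x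
  · intro s hs
    exact diamondHom_j An _ s hs
  · intro a ha haM
    exact diamondHom_weber An _ ha haM (diaIndex_pos M p u v huv ha haM) (diaIndex_lt M p a)
      (by rw [diaIndex_cast, coe_unitP])

/-- `ι'` has values in the `ℤ_(ℓ)`-fractions. -/
theorem isZlFraction_atkinEmbQ (y : ↥(K1Lev M p)) :
    IsZlFraction ℓ (atkinEmbQ M p u v huv An y) := by
  let S : Subfield ↥(K1Lev M p) := (zlFractionSubfield ℓ).comap (atkinEmbQ M p u v huv An)
  let T : Subfield (LaurentSeries ℚ) := S.map (SubringClass.subtype (K1Lev M p))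
  have hT : ∀ r : ℚ, algebraMap ℚ (LaurentSeries ℚ) r ∈ T := by
    intro r
    refine ⟨((r : ℚ) : ↥(K1Lev M p)), ?_, ?_⟩
    · show atkinEmbQ M p u v huv An ((r : ℚ) : ↥(K1Lev M p)) ∈ zlFractionSubfield ℓ
      rw [map_ratCast]
      exact SubfieldClass.ratCast_mem _ r
    · show (((r : ℚ) : ↥(K1Lev M p)) : LaurentSeries ℚ) = algebraMap ℚ (LaurentSeries ℚ) r
      rw [eq_ratCast]
      rfl
  have hgen : ∀ (s : LaurentSeries ℚ) (hs : s ∈ K1Lev M p),
      IsZlFraction ℓ (atkinEmbQ M p u v huv An ⟨s, hs⟩) → s ∈ T.toIntermediateField hT :=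
    fun s hs h => ⟨⟨s, hs⟩, h, rfl⟩
  have hK1 : ∀ (s : LaurentSeries ℚ) (hs : s ∈ K1 M),
      IsZlFraction ℓ (atkinEmbQ M p u v huv An ⟨s, K1_le_K1Lev M p hs⟩) := by
    intro s hs
    rw [atkinEmbQ_of_mem_K1 M p u v huv An ⟨s, hs⟩]
    exact isZlFraction_qExpand ℓ p (isZlFraction_of_mem_K1 M ℓ hs)
  have hbeta : ∀ (z : LaurentSeries ℚ) (hz : z ∈ K1 M),
      IsZlFraction ℓ (atkinEmbQ M p u v huv An ⟨qExpand ℚ p z, qExpand_mem_K1Lev M p hz⟩) := by
    intro z hz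
    have h := atkinEmbQ_betaOne M p u v huv An ⟨z, hz⟩
    have e : betaOne M p ⟨z, hz⟩ = ⟨qExpand ℚ p z, qExpand_mem_K1Lev M p hz⟩ := rfl
    rw [e] at h
    rw [h, diamondHom_apply]
    exact isZlFraction_of_mem_K1 M ℓ (SetLike.coe_mem _)
  have hle : K1Lev M p ≤ T.toIntermediateField hT := by
    rw [K1Lev, IntermediateField.adjoin_le_iff]
    rintro s ((⟨e, he, heMp, rfl⟩ | hs) | ⟨z, hz, rfl⟩)
    · -- `j(q^e)`, `e ∣ M p`
      have := he
      by_cases hpe : p ∣ e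
      · obtain ⟨e', rfl⟩ := hpe
        have he'0 : NeZero e' := ⟨fun h => he.out (by rw [h, mul_zero])⟩
        have he'M : e' ∣ M := by
          rw [mul_comm M p] at heMp
          exact Nat.dvd_of_mul_dvd_mul_left hp.out.pos heMp
        have hmem : qExpand ℚ e' jq ∈ K1 M :=
          IntermediateField.subset_adjoin ℚ _ (Or.inl ⟨e', he'0, he'M, rfl⟩)
        have heq : qExpand ℚ (p * e') jq = qExpand ℚ p (qExpand ℚ e' jq) :=
          (ModularCurve.qExpand_qExpand e' p jq).symm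
        have hm : qExpand ℚ (p * e') jq ∈ K1Lev M p := by
          rw [heq]
          exact qExpand_mem_K1Lev M p hmem
        refine hgen _ hm ?_
        rw [atkinEmbQ_congr M p u v huv An heq hm (qExpand_mem_K1Lev M p hmem)]
        exact hbeta _ hmem
      · have heM : e ∣ M :=
          (Nat.Coprime.dvd_of_dvd_mul_right
            ((Nat.Prime.coprime_iff_not_dvd hp.out).mpr hpe).symm heMp)
        have hmem : qExpand ℚ e jq ∈ K1 M :=
          IntermediateField.subset_adjoin ℚ _ (Or.inl ⟨e, he, heM, rfl⟩)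
        exact hgen _ (K1_le_K1Lev M p hmem) (hK1 _ hmem)
    · exact hgen _ (K1_le_K1Lev M p hs) (hK1 _ hs)
    · exact hgen _ (qExpand_mem_K1Lev M p hz) (hbeta _ hz)
  obtain ⟨y', hy', hyy'⟩ := hle y.2
  have : y' = y := Subtype.ext hyy'
  rw [← this]
  exact hy'

end Atkin

/-! ### the bridge at `K1 M ⊂ K1Lev M p` -/

section Main

variable (M ℓ : ℕ) [NeZero M] [hℓ : Fact ℓ.Prime]

/-- **`⟨p⟩` preserves the Gauss ring** (`p` a prime, `p ∤ M`, `p ≠ ℓ`, `D < (p+1) ψ(M)`). -/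
theorem diamond_prime_mem_gaussSubring (p : ℕ) [hp : Fact p.Prime] [NeZero p] (hpℓ : p ≠ ℓ)
    (hℓM : ¬ ℓ ∣ M) (u v : ℤ) (huv : u * M + v * p = 1) (An : WeberAnalytic M)
    (hfin : letI : Algebra ↥(K1 M) ↥(K1Lev M p) := (alphaOne M p).toAlgebra
      FiniteDimensional ↥(K1 M) ↥(K1Lev M p) ∧ Module.finrank ↥(K1 M) ↥(K1Lev M p) ≤ p + 1)
    (D : ℕ)
    (hdepK : ∀ x : Fin (D + 1) → LaurentSeries ℚ, (∀ i, x i ∈ K1 M) →
      ∃ c : Fin (D + 1) → ℚ[X], (∃ i, c i ≠ 0) ∧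
        ∑ i, (c i).eval₂ (HahnSeries.C : ℚ →+* LaurentSeries ℚ) jq * x i = 0)
    (hD : D < (p + 1) * dedekindPsi M)
    (f : ↥(K1 M)) (hf : (f : LaurentSeries ℚ) ∈ gaussSubring ℓ) :
    ((diamondQ (anData An) (unitP M p u v huv) f : ↥(K1 M)) : LaurentSeries ℚ) ∈
      gaussSubring ℓ := by
  let _ : Algebra ↥(K1 M) ↥(K1Lev M p) := (alphaOne M p).toAlgebra
  have : FiniteDimensional ↥(K1 M) ↥(K1Lev M p) := hfin.1
  have hpM : ¬ p ∣ M := not_dvd_of_bezout M p u v huv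
  exact diamond_mem_gaussSubring (K := ↥(K1 M)) (L := ↥(K1Lev M p)) ℓ M p hp.out hpM hpℓ hℓM
    (SubringClass.subtype (K1 M)) (SubringClass.subtype (K1Lev M p))
    (fun _ => rfl)
    (fun y => isZlFraction_of_mem_K1Lev M p ℓ y.2)
    (atkinEmbQ M p u v huv An)
    (fun y => isZlFraction_atkinEmbQ M p ℓ u v huv An y)
    (fun x => atkinEmbQ_of_mem_K1 M p u v huv An x)
    (betaOne M p) (fun _ => rfl)
    (diamondQ (anData An) (unitP M p u v huv))
    (fun x => atkinEmbQ_betaOne M p u v huv An x)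
    hfin.2
    (fun d _ hd => ⟨⟨qExpand ℚ d jq,
      IntermediateField.subset_adjoin ℚ _ (Or.inl ⟨d, ‹_›, hd, rfl⟩)⟩, rfl⟩)
    D (fun x => hdepK (fun i => (x i : LaurentSeries ℚ)) (fun i => (x i).2)) hD f hf

/-- **D = G: every diamond operator preserves the `ℓ`-Gauss valuation ring of `K1 M`**, `ℓ ∤ M`.
Inputs: the analytic Weber functions `An` with their growth at the cusps `hb` (AN-1b) and the degree
bound `hdepK` (AN-3). -/
theorem diamondQ_mem_gaussSubring (hM : 2 ≤ M) (hℓM : ¬ ℓ ∣ M) (An : WeberAnalytic M)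
    (hb : ∀ a : ℕ, 0 < a → a < M → ∀ g : SL(2, ℤ), ∃ m : ℕ,
      IsBoundedAtImInfty (fun z => Δ z ^ m * An.W (a : ZMod M) (g • z)))
    (D : ℕ)
    (hdepK : ∀ x : Fin (D + 1) → LaurentSeries ℚ, (∀ i, x i ∈ K1 M) →
      ∃ c : Fin (D + 1) → ℚ[X], (∃ i, c i ≠ 0) ∧
        ∑ i, (c i).eval₂ (HahnSeries.C : ℚ →+* LaurentSeries ℚ) jq * x i = 0)
    (d : (ZMod M)ˣ) (f : ↥(K1 M)) (hf : (f : LaurentSeries ℚ) ∈ gaussSubring ℓ) :
    ((diamondQ (anData An) d f : ↥(K1 M)) : LaurentSeries ℚ) ∈ gaussSubring ℓ := by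
  obtain ⟨p, hpB, hp, hpM, hpd⟩ := Neben.exists_prime_gt_not_dvd_natCast_eq d (max D ℓ)
  have hpF : Fact p.Prime := ⟨hp⟩
  have hp0 : NeZero p := ⟨hp.ne_zero⟩
  have hcop : p.Coprime M := (Nat.Prime.coprime_iff_not_dvd hp).mpr hpM
  obtain ⟨u, v, huv⟩ : IsCoprime (M : ℤ) (p : ℤ) := Nat.isCoprime_iff_coprime.mpr hcop.symm
  have hu : unitP M p u v huv = d := Units.ext (by rw [coe_unitP, hpd])
  have hpℓ : p ≠ ℓ := by
    have := lt_of_le_of_lt (le_max_right D ℓ) hpB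
    omega
  have hD : D < (p + 1) * dedekindPsi M := by
    have h1 := lt_of_le_of_lt (le_max_left D ℓ) hpB
    have h2 := dedekindPsi_pos' M (NeZero.ne M)
    calc D < p + 1 := by omega
      _ = (p + 1) * 1 := (mul_one _).symm
      _ ≤ (p + 1) * dedekindPsi M := Nat.mul_le_mul_left _ h2
  rw [← hu]
  exact diamond_prime_mem_gaussSubring M ℓ p hpℓ hℓM u v huv An
    (finrank_K1Lev_le_of_weber (WeberCuspData.ofZMod An.W An.isQExp An.slash hb) hM hp hcop)
    D hdepK hD f hf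

end Main

end Fermat.Agent.DS.IG

end
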