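import Mathlib
import Fermat.Agent.DS.IG.DiamondGauss
import Fermat.Agent.DS.Div.WeberCuspInst
import Fermat.Agent.DS.X1.TowerQ

/-!
# PROGRAMME III, X1-IRR, leaf (b): the UNCONDITIONAL plug of `D = G`

* `weberAnalytic M : ES.WeberAnalytic M` from helper16's `weberAnZ`;
* `k1_isSepVar_dOne` : `[K1Bar M : ℚ̄(j)] = d₁(M) = ψ(M)φ(M)/2` (`3 ≤ M`), from `Div.weberCuspData M`,
  helper23's `isSepVar_K1Bar_of` and helper6's index `card_cosets_PmGamma1`;
* `k1_hdepK` : polynomial dependence over `ℚ[j]` of any `d₁(M) + 1` elements of `K1 M`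
  (going down, `TowerQ.lean` + helper19's `exists_poly_dependent_of_finrank`);
* `k1_diamondQ_mem_gaussSubring` : every diamond preserves the `ℓ`-Gauss ring of `K1 M` (`ℓ ∤ M`);
* the two Artin inputs of helper2's `Diamond.lean`: `k1_weberInj`, `k1_finrank_F0K`.
-/

set_option autoImplicit false

noncomputable section

namespace Fermat.Agent.DS.IG

open ModularCurve Polynomial Fermat.Agent.Igusa Fermat.Agent.DS.X1 Fermat.Agent.DS.ES
open Fermat.Agent.DS.Div Fermat.Agent.X0 IntermediateField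
open UpperHalfPlane CongruenceSubgroup
open scoped MatrixGroups

local notation "Δ" => ModularForm.discriminant

variable (M : ℕ) [NeZero M]

/-- helper16's analytic Weber functions as helper1's `WeberAnalytic M`. -/
def weberAnalytic : WeberAnalytic M := ⟨weberAnZ M, isQExp_weberAnZ, weberAnZ_smul⟩

theorem weberAnalytic_cusp_bound (a : ℕ) (_ha : 0 < a) (_haM : a < M) (g : SL(2, ℤ)) :
    ∃ m : ℕ, IsBoundedAtImInfty (fun z => Δ z ^ m * (weberAnalytic M).W (a : ZMod M) (g • z)) := by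
  obtain ⟨m, hm⟩ := weberAn_cusp_bound M a g
  refine ⟨m, ?_⟩
  have : (weberAnalytic M).W (a : ZMod M) = weberAn M a := weberAnZ_natCast M a
  rw [this]
  exact hm

/-- **AN-3, unconditional**: `[K1Bar M : ℚ̄(j)] = d₁(M)`. -/
theorem k1_isSepVar_dOne (hM : 3 ≤ M) : IsSepVar Kb (jBar1 M) (dOne M) := by
  have h := isSepVar_K1Bar_of (weberCuspData M) (by omega : 2 ≤ M) (Γ := PmGamma1 M)
    (mem_PmGamma1_iff' M)
  rwa [card_cosets_PmGamma1 hM] at h

/-- `[K1 M : ℚ(jq)] ≤ d₁(M)`. -/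
theorem k1_finrank_Qj_le (hM : 3 ≤ M) :
    FiniteDimensional ℚ⟮(⟨jq, jq_mem_K1_tower M⟩ : K1 M)⟯ (K1 M) ∧
      Module.finrank ℚ⟮(⟨jq, jq_mem_K1_tower M⟩ : K1 M)⟯ (K1 M) ≤ dOne M :=
  finrank_Qj_K1_le M (jBar1 M) rfl (k1_isSepVar_dOne M hM)

/-- **`hdepK`, unconditional**. -/
theorem k1_hdepK (hM : 3 ≤ M) (x : Fin (dOne M + 1) → LaurentSeries ℚ) (hx : ∀ i, x i ∈ K1 M) :
    ∃ c : Fin (dOne M + 1) → ℚ[X], (∃ i, c i ≠ 0) ∧
      ∑ i, (c i).eval₂ (HahnSeries.C : ℚ →+* LaurentSeries ℚ) jq * x i = 0 :=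
  haveI := (k1_finrank_Qj_le M hM).1
  exists_poly_dependent_of_finrank (K1 M) (jq_mem_K1_tower M) (dOne M) (k1_finrank_Qj_le M hM).2 x hx

/-- **D = G, unconditional**: every diamond operator preserves the `ℓ`-Gauss valuation ring of
`K1 M`, `ℓ ∤ M`, `3 ≤ M`. -/
theorem k1_diamondQ_mem_gaussSubring (ℓ : ℕ) [Fact ℓ.Prime] (hM : 3 ≤ M) (hℓM : ¬ ℓ ∣ M)
    (d : (ZMod M)ˣ) (f : ↥(K1 M)) (hf : (f : LaurentSeries ℚ) ∈ gaussSubring ℓ) :
    ((diamondQ (anData (weberAnalytic M)) d f : ↥(K1 M)) : LaurentSeries ℚ) ∈ gaussSubring ℓ :=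
  diamondQ_mem_gaussSubring M ℓ (by omega) hℓM (weberAnalytic M) (weberAnalytic_cusp_bound M)
    (dOne M) (k1_hdepK M hM) d f hf

/-! ### the Artin inputs of `Diamond.lean` -/

/-- `S2`: `a ↦ weberQ M a` is injective modulo `±`. -/
theorem k1_weberInj : WeberInj M := by
  intro a b ha haM hb hbM h
  rcases weberQ_inj a b ha haM hb hbM h with h1 | h1
  · left; rw [h1]
  · right
    have : ((a + b : ℕ) : ZMod M) = 0 := by rw [h1]; exact ZMod.natCast_self M
    push_cast at this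
    exact eq_neg_of_add_eq_zero_left this

/-- `F0K M` and `restrict (modularFunctionFieldFull_le_K1 M)` have the same degree below `K1 M`. -/
theorem finrank_F0K_eq_relfinrank :
    Module.finrank ↥(F0K M) ↥(K1 M) = (modularFunctionFieldFull M).relfinrank (K1 M) := by
  rw [relfinrank_eq_finrank_restrict (modularFunctionFieldFull_le_K1 M)]
  let e : ↥(F0K M) ≃+* ↥(restrict (modularFunctionFieldFull_le_K1 M)) :=
    { toFun := fun x => ⟨x.1, (mem_restrict _ _).mpr ((mem_F0K x.1).mp x.2)⟩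
      invFun := fun y => ⟨y.1, (mem_F0K y.1).mpr ((mem_restrict _ _).mp y.2)⟩
      left_inv := fun _ => rfl
      right_inv := fun _ => rfl
      map_mul' := fun _ _ => rfl
      map_add' := fun _ _ => rfl }
  refine Algebra.finrank_eq_of_equiv_equiv e (RingEquiv.refl ↥(K1 M)) ?_
  exact RingHom.ext fun x => rfl

/-- **`hdeg`, unconditional**: `[K1 M : F₀(M)] = φ(M)/2` for `3 ≤ M`. -/
theorem k1_finrank_F0K (hM : 3 ≤ M) : Module.finrank ↥(F0K M) ↥(K1 M) = Nat.totient M / 2 := by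
  apply le_antisymm
  · rw [finrank_F0K_eq_relfinrank]
    exact relfinrank_F0_K1_le' M (jBar1 M) rfl (k1_isSepVar_dOne M hM)
      (by unfold dOne; exact dedekindPsi_mul_totient_div_two_mul_two M hM)
  · -- `F0K ≤ Fix(diamonds)`, `[K1 : Fix] = #diamonds = φ(M)/2`
    set D := anData (weberAnalytic M) with hD
    have hfinU := (finrank_F0_K1_le' M (jBar1 M) rfl (k1_isSepVar_dOne M hM)
      (by unfold dOne; exact dedekindPsi_mul_totient_div_two_mul_two M hM)).1
    have hcard := card_diamondGroup D (k1_weberInj M) hM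
    have hfix := finrank_fixedField_diamondGroup D
    have hle := F0K_le_fixedField D
    have hpos : 0 < Module.finrank ↥(F0K M) ↥(K1 M) := by
      rw [finrank_F0K_eq_relfinrank, relfinrank_eq_finrank_restrict
        (modularFunctionFieldFull_le_K1 M)]
      have := hfinU
      exact Module.finrank_pos
    have hdvd := IntermediateField.finrank_dvd_of_le_left hle
    rw [← hcard, ← hfix]
    exact Nat.le_of_dvd hpos hdvd

/-! ### helper2's Artin step, unconditional -/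

/-- **Artin**: the fixed field of the diamonds is `F₀(M)`. -/
theorem k1_fixedField_diamondGroup_eq (hM : 3 ≤ M) :
    IntermediateField.fixedField (diamondGroup (anData (weberAnalytic M))) = F0K M :=
  fixedField_diamondGroup_eq _ (k1_weberInj M) hM (k1_finrank_F0K M hM)

/-- every automorphism of `K1 M` fixing `F₀(M)` pointwise is a diamond. -/
theorem k1_exists_diamondQ_eq_of_fixes (hM : 3 ≤ M) (σ : ↥(K1 M) ≃ₐ[ℚ] ↥(K1 M))
    (hσ : ∀ x ∈ F0K M, σ x = x) :
    ∃ d : (ZMod M)ˣ, diamondQ (anData (weberAnalytic M)) d = σ :=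
  exists_diamondQ_eq_of_fixes _ (k1_weberInj M) hM (k1_finrank_F0K M hM) σ hσ

/-- `K1 M / F₀(M)` is Galois (with group `(ℤ/M)ˣ/±1`). -/
theorem k1_isGalois_K1_F0K (hM : 3 ≤ M) : IsGalois ↥(F0K M) ↥(K1 M) :=
  isGalois_K1_F0K (anData (weberAnalytic M)) (k1_weberInj M) hM (k1_finrank_F0K M hM)

theorem k1_finiteDimensional_F0K (hM : 3 ≤ M) : FiniteDimensional ↥(F0K M) ↥(K1 M) := by
  apply Module.finite_of_finrank_pos
  rw [k1_finrank_F0K M hM, ← card_diamondGroup (anData (weberAnalytic M)) (k1_weberInj M) hM]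
  exact Nat.card_pos

end Fermat.Agent.DS.IG
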