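/-
PROGRAMME III (S48), X1-IRR, (E') AT `F₀(M) ⊂ K1 M` (helper19): the residue degree of the `ℓ`-Gauss
valuation of `K1 M` over `F₀(M) = modularFunctionFieldFull M` is the full degree `φ(M)/2`.

helper23's `ResDeg.exists_residue_independent` (`DS/X1/ResidueDegree.lean`) at `K := ↥(F0K M)`,
`L := ↥(K1 M)` (Galois by helper2's `isGalois_K1_F0K`), `O := gaussK1 M ℓ` (the Gauss valuation
subring), `hO :=` D = G (`DiamondGauss.diamondQ_mem_gaussSubring` + helper2's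
`exists_diamondQ_eq_of_fixes`), `ϖ := ℓ`.  Output in raw series form (the `b`, `hind` of
helper27's `Chart/Tower.lean`).
-/
import Mathlib
import Fermat.Agent.DS.IG.DiamondGauss
import Fermat.Agent.DS.X1.ResidueDegree

set_option autoImplicit false

noncomputable section

namespace Fermat.Agent.DS.IG

open ModularCurve Polynomial Fermat.Agent.Igusa Fermat.Agent.DS.X1 Fermat.Agent.DS.ES
open UpperHalfPlane CongruenceSubgroup
open scoped MatrixGroups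

local notation "Δ" => ModularForm.discriminant

/-! ### generalities on valuation subrings -/

theorem mem_nonunits_iff_inv_not_mem {K : Type*} [Field K] (A : ValuationSubring K) (x : K) :
    x ∈ A.nonunits ↔ x = 0 ∨ x⁻¹ ∉ A := by
  rw [ValuationSubring.mem_nonunits_iff]
  constructor
  · intro h
    by_cases hx : x = 0
    · exact Or.inl hx
    · right
      intro hinv
      have h1 : A.valuation x⁻¹ ≤ 1 := (A.valuation_le_one_iff _).mpr hinv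
      rw [map_inv₀] at h1
      have h0 : 0 < A.valuation x := by
        rw [zero_lt_iff]
        exact (_root_.map_ne_zero _).mpr hx
      have := (inv_le_one₀ h0).mp h1
      exact absurd h (not_lt.mpr this)
  · rintro (rfl | h)
    · rw [map_zero]
      exact zero_lt_one
    · by_contra hlt
      have h1 : 1 ≤ A.valuation x := not_lt.mp hlt
      have h0 : 0 < A.valuation x := lt_of_lt_of_le zero_lt_one h1
      apply h
      rw [← A.valuation_le_one_iff, map_inv₀]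
      exact (inv_le_one₀ h0).mpr h1

theorem mem_nonunits_comap_iff {K L : Type*} [Field K] [Field L] (f : K →+* L)
    (A : ValuationSubring L) (x : K) : x ∈ (A.comap f).nonunits ↔ f x ∈ A.nonunits := by
  rw [mem_nonunits_iff_inv_not_mem, mem_nonunits_iff_inv_not_mem, ValuationSubring.mem_comap,
    map_inv₀, map_eq_zero]

section Gauss

variable (ℓ : ℕ) [hℓ : Fact ℓ.Prime]

theorem mem_nonunits_gaussValSub {L : Type*} [Field L] (i : L →+* LaurentSeries ℚ)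
    (hfr : ∀ y : L, IsZlFraction ℓ (i y)) (y : L) :
    y ∈ (gaussValSub ℓ i hfr).nonunits ↔
      ∃ h : i y ∈ gaussSubring ℓ, gaussRes ℓ ⟨i y, h⟩ = 0 := by
  rw [mem_nonunits_iff_inv_not_mem, mem_gaussValSub, map_inv₀]
  constructor
  · rintro (rfl | h)
    · refine ⟨by rw [map_zero]; exact (gaussSubring ℓ).zero_mem, ?_⟩
      have : (⟨i 0, by rw [map_zero]; exact (gaussSubring ℓ).zero_mem⟩ : gaussSubring ℓ) = 0 :=
        Subtype.ext (map_zero i)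
      rw [this, map_zero]
    · have hmem : i y ∈ gaussSubring ℓ := by
        rcases mem_or_inv_mem_gaussSubring ℓ (hfr y) with h1 | h1
        · exact h1
        · exact absurd h1 h
      refine ⟨hmem, ?_⟩
      by_contra hne
      exact h (inv_mem_gaussSubring_of_gaussRes_ne_zero ℓ ⟨i y, hmem⟩ hne)
  · rintro ⟨hmem, h0⟩
    by_cases hy : y = 0
    · exact Or.inl hy
    · right
      intro hinv
      exact gaussRes_ne_zero_of_inv_mem ℓ ⟨i y, hmem⟩ ((_root_.map_ne_zero i).mpr hy) hinv h0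

/-- a nonzero series with bounded denominators is `ℓ ^ n · u`, `u` a unit of the Gauss ring
(copy of main's `BR.TwoValQ.exists_zpow_mul_unit`, to keep the import closure small) -/
theorem exists_zpow_natCast_mul_unit {x : LaurentSeries ℚ} (hx : IsZlFraction ℓ x) (hx0 : x ≠ 0) :
    ∃ (n : ℤ) (u : LaurentSeries ℚ), u ∈ gaussSubring ℓ ∧ u⁻¹ ∈ gaussSubring ℓ ∧
      x = (ℓ : LaurentSeries ℚ) ^ n * u := by
  have hC : (HahnSeries.C (ℓ : ℚ) : LaurentSeries ℚ) = (ℓ : LaurentSeries ℚ) :=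
    map_natCast (HahnSeries.C : ℚ →+* LaurentSeries ℚ) ℓ
  rw [← hC]
  obtain ⟨a, b, hb, hab⟩ := hx
  have hb0 : zlIota ℓ b ≠ 0 := fun h => hb (zlIota_injective ℓ (by rw [h, map_zero]))
  have ha : a ≠ 0 := by
    rintro rfl
    rw [map_zero] at hab
    exact (mul_ne_zero hx0 hb0) hab
  obtain ⟨m, a', rfl, ha'⟩ := exists_eq_pow_mul_of_ne_zero ℓ ha
  obtain ⟨n, b', rfl, hb'⟩ := exists_eq_pow_mul_of_ne_zero ℓ hb
  have hπ : zlIota ℓ (HahnSeries.C (zlPrime ℓ)) = HahnSeries.C (ℓ : ℚ) := coe_gaussPrime ℓ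
  have hπ0 : (HahnSeries.C (ℓ : ℚ) : LaurentSeries ℚ) ≠ 0 := by
    rw [← hπ]; exact zlIota_C_zlPrime_ne_zero ℓ
  have ha0 := zlIota_ne_zero_of_zlRed_ne_zero ℓ ha'
  have hb0' := zlIota_ne_zero_of_zlRed_ne_zero ℓ hb'
  rw [map_mul, map_mul, map_pow, map_pow, hπ] at hab
  refine ⟨(m : ℤ) - n, zlIota ℓ a' / zlIota ℓ b', ⟨a', b', hb', div_mul_cancel₀ _ hb0'⟩,
    ⟨b', a', ha', ?_⟩, ?_⟩
  · rw [inv_div, div_mul_cancel₀ _ ha0]
  · rw [zpow_sub₀ hπ0, zpow_natCast, zpow_natCast]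
    have hn0 : (HahnSeries.C (ℓ : ℚ) : LaurentSeries ℚ) ^ n ≠ 0 := pow_ne_zero n hπ0
    field_simp
    rw [← hab]
    ring

theorem natCast_mem_gaussSubring : (ℓ : LaurentSeries ℚ) ∈ gaussSubring ℓ :=
  natCast_mem _ ℓ

theorem natCast_inv_not_mem_gaussSubring : ((ℓ : LaurentSeries ℚ))⁻¹ ∉ gaussSubring ℓ := by
  intro hinv
  have hC : ((gaussPrime ℓ : gaussSubring ℓ) : LaurentSeries ℚ) = (ℓ : LaurentSeries ℚ) := by
    rw [coe_gaussPrime]
    exact map_natCast (HahnSeries.C : ℚ →+* LaurentSeries ℚ) ℓ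
  have h0 : ((gaussPrime ℓ : gaussSubring ℓ) : LaurentSeries ℚ) ≠ 0 := by
    rw [coe_gaussPrime]
    intro h
    rw [HahnSeries.C_apply, HahnSeries.single_eq_zero_iff] at h
    exact hℓ.out.ne_zero (by exact_mod_cast h)
  exact gaussRes_ne_zero_of_inv_mem ℓ (gaussPrime ℓ) h0 (by rw [hC]; exact hinv)
    (gaussRes_gaussPrime ℓ)

end Gauss

/-! ### the instance `F₀(M) ⊂ K1 M` -/

section K1

variable (M ℓ : ℕ) [NeZero M] [hℓ : Fact ℓ.Prime]

/-- the `ℓ`-Gauss valuation subring of `K1 M` -/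
def gaussK1 : ValuationSubring ↥(K1 M) :=
  gaussValSub ℓ (SubringClass.subtype (K1 M)) (fun y => isZlFraction_of_mem_K1 M ℓ y.2)

theorem mem_gaussK1 {y : ↥(K1 M)} :
    y ∈ gaussK1 M ℓ ↔ (y : LaurentSeries ℚ) ∈ gaussSubring ℓ := Iff.rfl

theorem mem_nonunits_gaussK1 (y : ↥(K1 M)) :
    y ∈ (gaussK1 M ℓ).nonunits ↔
      ∃ h : (y : LaurentSeries ℚ) ∈ gaussSubring ℓ, gaussRes ℓ ⟨(y : LaurentSeries ℚ), h⟩ = 0 :=
  mem_nonunits_gaussValSub ℓ _ _ y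

variable {M ℓ}

/-- **D = G**, Galois form: every `F₀(M)`-automorphism of `K1 M` preserves the Gauss ring. -/
theorem algEquiv_mem_gaussK1 (hM : 3 ≤ M) (hℓM : ¬ ℓ ∣ M) (An : WeberAnalytic M)
    (hb : ∀ a : ℕ, 0 < a → a < M → ∀ g : SL(2, ℤ), ∃ m : ℕ,
      IsBoundedAtImInfty (fun z => Δ z ^ m * An.W (a : ZMod M) (g • z)))
    (D : ℕ)
    (hdepK : ∀ x : Fin (D + 1) → LaurentSeries ℚ, (∀ i, x i ∈ K1 M) →
      ∃ c : Fin (D + 1) → ℚ[X], (∃ i, c i ≠ 0) ∧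
        ∑ i, (c i).eval₂ (HahnSeries.C : ℚ →+* LaurentSeries ℚ) jq * x i = 0)
    (hinj : WeberInj M)
    (hdeg : Module.finrank ↥(F0K M) ↥(K1 M) = Nat.totient M / 2)
    (g : ↥(K1 M) ≃ₐ[↥(F0K M)] ↥(K1 M)) (x : ↥(K1 M)) (hx : x ∈ gaussK1 M ℓ) :
    g x ∈ gaussK1 M ℓ := by
  obtain ⟨d, hd⟩ := exists_diamondQ_eq_of_fixes (anData An) hinj hM hdeg (g.restrictScalars ℚ)
    (fun y hy => g.commutes ⟨y, hy⟩)
  have h1 : g x = diamondQ (anData An) d x := by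
    rw [hd]
    rfl
  rw [h1]
  exact diamondQ_mem_gaussSubring M ℓ (by omega) hℓM An hb D hdepK d x hx

/-- **(E') at `F₀(M) ⊂ K1 M`**, abstract output. -/
theorem exists_residue_independent_gaussK1 (hM : 3 ≤ M) (hℓM : ¬ ℓ ∣ M) (An : WeberAnalytic M)
    (hb : ∀ a : ℕ, 0 < a → a < M → ∀ g : SL(2, ℤ), ∃ m : ℕ,
      IsBoundedAtImInfty (fun z => Δ z ^ m * An.W (a : ZMod M) (g • z)))
    (D : ℕ)
    (hdepK : ∀ x : Fin (D + 1) → LaurentSeries ℚ, (∀ i, x i ∈ K1 M) →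
      ∃ c : Fin (D + 1) → ℚ[X], (∃ i, c i ≠ 0) ∧
        ∑ i, (c i).eval₂ (HahnSeries.C : ℚ →+* LaurentSeries ℚ) jq * x i = 0)
    (hinj : WeberInj M)
    (hdeg : Module.finrank ↥(F0K M) ↥(K1 M) = Nat.totient M / 2) :
    ∃ b : Fin (Module.finrank ↥(F0K M) ↥(K1 M)) → ↥(K1 M), (∀ i, b i ∈ gaussK1 M ℓ) ∧
      ∀ c : Fin (Module.finrank ↥(F0K M) ↥(K1 M)) → ↥(F0K M),
        (∀ i, c i ∈ (gaussK1 M ℓ).comap (algebraMap ↥(F0K M) ↥(K1 M))) →
        (∑ i, algebraMap ↥(F0K M) ↥(K1 M) (c i) * b i) ∈ (gaussK1 M ℓ).nonunits →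
        ∀ i, c i ∈ ((gaussK1 M ℓ).comap (algebraMap ↥(F0K M) ↥(K1 M))).nonunits := by
  have hpos : 0 < Module.finrank ↥(F0K M) ↥(K1 M) := by
    rw [hdeg, ← card_diamondGroup (anData An) hinj hM]
    exact Nat.card_pos
  have hfd : FiniteDimensional ↥(F0K M) ↥(K1 M) := Module.finite_of_finrank_pos hpos
  have hgal : IsGalois ↥(F0K M) ↥(K1 M) := isGalois_K1_F0K (anData An) hinj hM hdeg
  have hcast : ((algebraMap ↥(F0K M) ↥(K1 M) ((ℓ : ℕ) : ↥(F0K M)) : ↥(K1 M)) : LaurentSeries ℚ) =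
      (ℓ : LaurentSeries ℚ) := by
    rw [map_natCast]
    rfl
  refine ResDeg.exists_residue_independent (gaussK1 M ℓ)
    (fun g x hx => algEquiv_mem_gaussK1 hM hℓM An hb D hdepK hinj hdeg g x hx)
    ((ℓ : ℕ) : ↥(F0K M)) ?_ ?_ ?_
  · rw [mem_gaussK1, hcast]
    exact natCast_mem_gaussSubring ℓ
  · rw [mem_gaussK1]
    intro h
    apply natCast_inv_not_mem_gaussSubring ℓ
    rw [← hcast]
    have e : (((algebraMap ↥(F0K M) ↥(K1 M) ((ℓ : ℕ) : ↥(F0K M)))⁻¹ : ↥(K1 M)) : LaurentSeries ℚ) =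
        ((algebraMap ↥(F0K M) ↥(K1 M) ((ℓ : ℕ) : ↥(F0K M)) : ↥(K1 M)) : LaurentSeries ℚ)⁻¹ := rfl
    rw [← e]
    exact h
  · intro x hx0
    have hx0' : (x : LaurentSeries ℚ) ≠ 0 := fun h => hx0 (Subtype.ext h)
    obtain ⟨n, u, hu, hu', hxu⟩ :=
      exists_zpow_natCast_mul_unit ℓ (isZlFraction_of_mem_K1 M ℓ x.2) hx0'
    have hℓ0 : (ℓ : LaurentSeries ℚ) ≠ 0 := by
      intro h
      apply natCast_inv_not_mem_gaussSubring ℓ
      rw [h, inv_zero]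
      exact (gaussSubring ℓ).zero_mem
    set w : ↥(K1 M) := algebraMap ↥(F0K M) ↥(K1 M) ((ℓ : ℕ) : ↥(F0K M)) with hw
    have hu_eq : u = ((x * (w ^ n)⁻¹ : ↥(K1 M)) : LaurentSeries ℚ) := by
      have e : ((x * (w ^ n)⁻¹ : ↥(K1 M)) : LaurentSeries ℚ) =
          (x : LaurentSeries ℚ) * ((w : LaurentSeries ℚ) ^ n)⁻¹ := by
        push_cast
        rfl
      rw [e, hcast, hxu]
      field_simp
    refine ⟨n, x * (w ^ n)⁻¹, ?_, ?_, ?_⟩
    · rw [mem_gaussK1, ← hu_eq]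
      exact hu
    · rw [mem_gaussK1]
      have e : (((x * (w ^ n)⁻¹)⁻¹ : ↥(K1 M)) : LaurentSeries ℚ) =
          ((x * (w ^ n)⁻¹ : ↥(K1 M)) : LaurentSeries ℚ)⁻¹ := rfl
      rw [e, ← hu_eq]
      exact hu'
    · have hw0 : w ≠ 0 := by
        intro h
        apply hℓ0
        rw [← hcast, h]
        rfl
      field_simp

omit [NeZero M] in
theorem gaussRes_congr {s t : LaurentSeries ℚ} (h : s = t) (hs : s ∈ gaussSubring ℓ)
    (ht : t ∈ gaussSubring ℓ) : gaussRes ℓ ⟨s, hs⟩ = gaussRes ℓ ⟨t, ht⟩ := by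
  subst h
  rfl

/-- **(E') at `F₀(M) ⊂ K1 M`, series form**: `φ(M)/2` Gauss-integral elements of `K1 M` whose
residues are linearly independent over the residue field of `F₀(M) = modularFunctionFieldFull M`
(the `b`, `hind` of helper27's `Chart/Tower.lean`). -/
theorem exists_residue_independent_K1 (hM : 3 ≤ M) (hℓM : ¬ ℓ ∣ M) (An : WeberAnalytic M)
    (hb : ∀ a : ℕ, 0 < a → a < M → ∀ g : SL(2, ℤ), ∃ m : ℕ,
      IsBoundedAtImInfty (fun z => Δ z ^ m * An.W (a : ZMod M) (g • z)))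
    (D : ℕ)
    (hdepK : ∀ x : Fin (D + 1) → LaurentSeries ℚ, (∀ i, x i ∈ K1 M) →
      ∃ c : Fin (D + 1) → ℚ[X], (∃ i, c i ≠ 0) ∧
        ∑ i, (c i).eval₂ (HahnSeries.C : ℚ →+* LaurentSeries ℚ) jq * x i = 0)
    (hinj : WeberInj M)
    (hdeg : Module.finrank ↥(F0K M) ↥(K1 M) = Nat.totient M / 2) :
    ∃ b : Fin (Nat.totient M / 2) → LaurentSeries ℚ, (∀ i, b i ∈ K1 M) ∧
      (∀ i, b i ∈ gaussSubring ℓ) ∧
      ∀ c : Fin (Nat.totient M / 2) → LaurentSeries ℚ,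
        (∀ i, c i ∈ modularFunctionFieldFull M) →
        ∀ (hc : ∀ i, c i ∈ gaussSubring ℓ) (h : ∑ i, c i * b i ∈ gaussSubring ℓ),
          gaussRes ℓ ⟨_, h⟩ = 0 → ∀ i, gaussRes ℓ ⟨c i, hc i⟩ = 0 := by
  obtain ⟨b, hbO, hind⟩ :=
    exists_residue_independent_gaussK1 (ℓ := ℓ) hM hℓM An hb D hdepK hinj hdeg
  rw [← hdeg]
  refine ⟨fun i => (b i : LaurentSeries ℚ), fun i => (b i).2, fun i => hbO i, ?_⟩
  intro c hcF hc h h0 i
  let c' : Fin (Module.finrank ↥(F0K M) ↥(K1 M)) → ↥(F0K M) :=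
    fun i => ⟨⟨c i, modularFunctionFieldFull_le_K1 M (hcF i)⟩, hcF i⟩
  have e : ((∑ i, algebraMap ↥(F0K M) ↥(K1 M) (c' i) * b i : ↥(K1 M)) : LaurentSeries ℚ) =
      ∑ i, c i * (b i : LaurentSeries ℚ) := by
    push_cast
    rfl
  have h1 := hind c' (fun i => hc i) (by
    rw [mem_nonunits_gaussK1]
    exact ⟨e ▸ h, (gaussRes_congr e _ h).trans h0⟩) i
  rw [mem_nonunits_comap_iff, mem_nonunits_gaussK1] at h1
  obtain ⟨_, h2⟩ := h1
  exact h2

end K1
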