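/-
PROGRAMME III (S48), X1-IRR/IG, THE FINAL INSTANCE (helper19):
`ChartInputs (K1 M) ℓ (ψ(M) · φ(M)/2)` for every `M ≥ 3` and every prime `ℓ ∤ M`.

`=` helper27's `Chart.nonempty_chartInputs_of_galois` (`DS/Chart/TowerGalois.lean`) at
`K := ↥(F0K M)`, `F₀' := modularFunctionFieldFull M`, `F₁ := K1 M`, `e := F0KEquiv M`,
`I₀ := SanityX0.chartInputs_full M ℓ hℓM`, `hzl := ChartK1.isZlField_K1`,
`hO :=` D = G (`ResidueK1.algEquiv_mem_gaussK1`, fed with helper11's unconditional `k1_` exports),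
`hdeg :=` AN-3 (`k1_finrank_Qj_le`).
-/
import Mathlib
import Fermat.Agent.DS.IG.ResidueK1
import Fermat.Agent.DS.IG.DiamondGaussInst
import Fermat.Agent.DS.Chart.TowerGalois
import Fermat.Agent.DS.Chart.SanityX0

set_option autoImplicit false

noncomputable section

namespace Fermat.Agent.DS.IG

open ModularCurve Polynomial Fermat.Agent.Igusa Fermat.Agent.DS.X1 Fermat.Agent.DS.ES
open Fermat.Agent.DS.Chart IntermediateField

variable (M ℓ : ℕ) [NeZero M] [hℓ : Fact ℓ.Prime]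

omit [NeZero M] in
/-- `d₁(M) = ψ(M) φ(M) / 2 = ψ(M) · (φ(M)/2)` for `3 ≤ M`. -/
theorem dOne_eq_mul (hM : 3 ≤ M) : dOne M = dedekindPsi M * (Nat.totient M / 2) := by
  obtain ⟨k, hk⟩ : Even (Nat.totient M) := Nat.totient_even (by omega)
  unfold dOne
  rw [hk, ← two_mul, Nat.mul_div_cancel_left _ (by norm_num : 0 < 2), ← mul_assoc,
    mul_comm (dedekindPsi M) 2, mul_assoc, Nat.mul_div_cancel_left _ (by norm_num : 0 < 2)]

attribute [local instance] ChartK1.fact_jq_mem_K1 SanityX0.fact_jq_mem_full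

/-- (I3) for `K1 M`: `[K1 M : ℚ(j)] ≤ ψ(M) · (φ(M)/2)`. -/
theorem degInputs_K1 (hM : 3 ≤ M) :
    DegInputs (K1 M) (dedekindPsi M * (Nat.totient M / 2)) := by
  rw [← dOne_eq_mul M hM]
  exact ⟨(k1_finrank_Qj_le M hM).1, (k1_finrank_Qj_le M hM).2⟩

/-- **THE INSTANCE**: `ChartInputs (K1 M) ℓ (ψ(M) · φ(M)/2)` for `3 ≤ M`, `ℓ ∤ M`. -/
theorem nonempty_chartInputs_K1 (hM : 3 ≤ M) (hℓM : ¬ ℓ ∣ M) :
    Nonempty (ChartInputs (K1 M) ℓ (dedekindPsi M * (Nat.totient M / 2))) := by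
  have hdegF := k1_finrank_F0K M hM
  have : FiniteDimensional ↥(F0K M) ↥(K1 M) := k1_finiteDimensional_F0K M hM
  have : IsGalois ↥(F0K M) ↥(K1 M) := k1_isGalois_K1_F0K M hM
  have key := nonempty_chartInputs_of_galois ℓ (modularFunctionFieldFull M) (K1 M)
    (K := ↥(F0K M)) (SanityX0.chartInputs_full M ℓ hℓM) (ChartK1.isZlField_K1 M ℓ) (F0KEquiv M)
    (fun _ => rfl)
    (fun g x hx => algEquiv_mem_gaussK1 hM hℓM (weberAnalytic M) (weberAnalytic_cusp_bound M)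
      (dOne M) (k1_hdepK M hM) (k1_weberInj M) hdegF g x hx)
    (by rw [hdegF]; exact degInputs_K1 M hM)
  rwa [hdegF] at key

end Fermat.Agent.DS.IG
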