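/-
PROGRAMME III (S48), port leaf X1-IG / X1-IRR, node IRR-2 (helper19): THE RESIDUE JUMP.

`ℓ` a prime, `M ≥ 1`, `p` a prime with `p ∤ M ℓ`, `ℓ ∤ M`.  Let `k ⊆ 𝔽_ℓ((q))` be a subfield
containing the `j̄(q^d)`, `d ∣ M`, such that any `D + 1` elements of `k` are linearly dependent over
`𝔽_ℓ(j̄)` (`[k : 𝔽_ℓ(j̄)] ≤ D`), and `D < ψ(M p)`.  Then for some `d ∣ M` the powers
`1, γ, …, γ^p` of `γ = j̄(q^{dp})` are linearly independent over `k`.

Proof over an algebraically closed `F ⊇ 𝔽_ℓ` carrying the modular equations (main: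
`Igusa.exists_modEqData_charP`), in the Puiseux model `F((t))`, `q = t^{Mp}`:
* `K := F(j)(φ k)` has degree `≤ D` over `F(j)`;
* main's tower bound `Igusa.towerBound_holds (M p)` forces some `γ_d ∉ K`;
* the modular equation `Φ_p(X, j(q^d)) = (X - γ_d) ∏_b (X - j(ζ^b q^{d/p}))` and the order lemma
  (`Igusa.natDegree_eq_zero_or_eq_card_of_order`) force `[K(γ_d) : K] = p + 1`.
-/
import Mathlib
import Fermat.Agent.Igusa.TowerBoundProof
import Fermat.Agent.Igusa.CoeffRingModEq
import Fermat.Agent.BR.GenusNodeCount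

set_option autoImplicit false

noncomputable section

namespace Fermat.Agent.DS.IG

open ModularCurve Polynomial Fermat.Agent.Igusa

/-! ### The dichotomy in the Puiseux model -/

section Dichotomy

variable {F : Type*} [Field F] {p : ℕ} [NeZero p] {ζ : Fˣ} {pinv : F}
variable {K : Type*} [Field K] [Algebra K (LaurentSeries F)]

theorem eval₂_C_mem_range
    (hC : ∀ c : F, HahnSeries.C c ∈ (algebraMap K (LaurentSeries F)).range)
    {y : LaurentSeries F} (hy : y ∈ (algebraMap K (LaurentSeries F)).range) (P : F[X]) :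
    Polynomial.eval₂ (HahnSeries.C : F →+* LaurentSeries F) y P ∈
      (algebraMap K (LaurentSeries F)).range := by
  rw [Polynomial.eval₂_eq_sum_range]
  exact Subring.sum_mem _ fun i _ => Subring.mul_mem _ (hC _) (Subring.pow_mem _ hy _)

theorem evY_mem_lifts
    (hC : ∀ c : F, HahnSeries.C c ∈ (algebraMap K (LaurentSeries F)).range)
    {y : LaurentSeries F} (hy : y ∈ (algebraMap K (LaurentSeries F)).range) (Φ : F[X][X]) :
    evY y Φ ∈ Polynomial.lifts (algebraMap K (LaurentSeries F)) := by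
  rw [Polynomial.lifts_iff_coeff_lifts]
  intro n
  rw [evY_apply, Polynomial.coeff_map, Polynomial.coe_eval₂RingHom]
  exact eval₂_C_mem_range hC hy _

/-- **Dichotomy.** `K ⊆ F((t))` a subfield containing the constants and `j(t^{np})`, all of whose
elements have order divisible by `g`, with `g ∤ k n` for `0 < k < p`.  If `γ = j(t^{np²}) ∉ K`
then `γ` has degree exactly `p + 1` over `K`. -/
theorem natDegree_minpoly_of_not_mem_range (d : ModEqData F p ζ pinv) (n g : ℕ) [NeZero n]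
    (hord : ∀ x : K, (g : ℤ) ∣ (algebraMap K (LaurentSeries F) x).order)
    (hg : ∀ k : ℕ, 0 < k → k < p → ¬ (g : ℤ) ∣ (k : ℤ) * (-(n : ℤ)))
    (hC : ∀ c : F, HahnSeries.C c ∈ (algebraMap K (LaurentSeries F)).range)
    (hy : J (1 : Fˣ) (n * p) ∈ (algebraMap K (LaurentSeries F)).range)
    (hγ : J (1 : Fˣ) (n * (p * p)) ∉ (algebraMap K (LaurentSeries F)).range) :
    IsIntegral K (J (1 : Fˣ) (n * (p * p))) ∧
      (minpoly K (J (1 : Fˣ) (n * (p * p)))).natDegree = p + 1 := by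
  classical
  set i := algebraMap K (LaurentSeries F) with hi
  set γ := J (1 : Fˣ) (n * (p * p)) with hγdef
  have hme := d.me1_subst (1 : Fˣ) n
  rw [one_pow, one_pow] at hme
  obtain ⟨ΦK, hΦK, hdeg, hmonic⟩ := Polynomial.lifts_and_natDegree_eq_and_monic
    (evY_mem_lifts hC hy d.Phi) (evY_monic _ d.Phi_monic)
  have hroot : Polynomial.aeval γ ΦK = 0 := by
    rw [Polynomial.aeval_def, ← Polynomial.eval_map, hΦK, hme, eval_mul, eval_sub, eval_X, eval_C,
      sub_self, zero_mul]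
  have hint : IsIntegral K γ := ⟨ΦK, hmonic, by rwa [Polynomial.aeval_def] at hroot⟩
  refine ⟨hint, ?_⟩
  obtain ⟨m'', hm''⟩ := minpoly.dvd K γ hroot
  have hmm : (minpoly K γ).Monic := minpoly.monic hint
  have hm''monic : m''.Monic := hmm.of_mul_monic_left (hm'' ▸ hmonic)
  have h1 : (X - C γ) ∣ (minpoly K γ).map i := by
    rw [dvd_iff_isRoot, IsRoot.def, eval_map, ← aeval_def]
    exact minpoly.aeval K γ
  obtain ⟨m₁, hm₁⟩ := h1
  set G : (LaurentSeries F)[X] := ∏ b ∈ Finset.range p, (X - C (J (ζ ^ b * 1) n)) with hG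
  have h2 : m₁ * m''.map i = G := by
    have : (X - C γ) * (m₁ * m''.map i) = (X - C γ) * G := by
      rw [← mul_assoc, ← hm₁, ← Polynomial.map_mul, ← hm'', hΦK, hme]
    exact mul_left_cancel₀ (X_sub_C_ne_zero _) this
  set s : Multiset (LaurentSeries F) :=
    (Finset.range p).val.map fun b => J (ζ ^ b * 1) n with hs
  have hcard : Multiset.card s = p := by
    rw [hs, Multiset.card_map, Finset.card_val, Finset.card_range]
  have hGs : G = (s.map fun a => X - C a).prod := by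
    rw [hs, Multiset.map_map, hG, Finset.prod_eq_multiset_prod]
    rfl
  have hdich := natDegree_eq_zero_or_eq_card_of_order i (g : ℤ) hord s (-(n : ℤ))
    (fun y hy => by
      obtain ⟨b, -, rfl⟩ := Multiset.mem_map.1 hy
      exact ⟨J_ne_zero _ n, order_J _ n⟩)
    (fun k hk0 hkn => hg k hk0 (hcard ▸ hkn)) m'' hm''monic
    (by rw [← hGs, ← h2]; exact dvd_mul_left _ _)
  have hdegsum : (minpoly K γ).natDegree + m''.natDegree = p + 1 := by
    rw [← hmm.natDegree_mul hm''monic, ← hm'', hdeg, evY_natDegree _ d.Phi_monic, d.Phi_natDegree]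
  rcases hdich with h0 | hp'
  · omega
  · exfalso
    rw [hcard] at hp'
    have h3 : (minpoly K γ).natDegree = 1 := by omega
    exact hγ (minpoly.natDegree_eq_one_iff.mp h3)

end Dichotomy

/-! ### A degree bound from linear dependence -/

section Generic

/-- `Ω/K₀` fields, `S ⊆ Ω` a multiplicative submonoid such that any `D + 1` elements of `S` are
linearly dependent over `K₀`.  Then `K₀(S)` has degree `≤ D` over `K₀`. -/
theorem finrank_adjoin_le_of_dependent {K₀ Ω : Type*} [Field K₀] [Field Ω] [Algebra K₀ Ω]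
    (S : Submonoid Ω) (D : ℕ)
    (hdep : ∀ x : Fin (D + 1) → Ω, (∀ i, x i ∈ S) → ¬ LinearIndependent K₀ x) :
    FiniteDimensional K₀ ↥(IntermediateField.adjoin K₀ (S : Set Ω)) ∧
      Module.finrank K₀ ↥(IntermediateField.adjoin K₀ (S : Set Ω)) ≤ D := by
  classical
  obtain ⟨b, hbS, hbspan, hbli⟩ := exists_linearIndependent K₀ (S : Set Ω)
  -- `b` is finite of cardinality at most `D`
  have hno : ¬ ∃ t : Finset Ω, (t : Set Ω) ⊆ b ∧ t.card = D + 1 := by
    rintro ⟨t, ht, hcard⟩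
    let e : Fin (D + 1) ≃ t := (t.equivFinOfCardEq hcard).symm
    refine hdep (fun i => (e i : Ω)) (fun i => hbS (ht (e i).2)) ?_
    have : LinearIndependent K₀ ((Subtype.val : b → Ω) ∘ fun i => (⟨(e i : Ω), ht (e i).2⟩ : b)) :=
      hbli.comp _ (fun i j hij => e.injective (Subtype.ext (congrArg (fun z : b => (z : Ω)) hij)))
    exact this
  have hfin : b.Finite := by
    by_contra hinf
    exact hno (Set.Infinite.exists_subset_card_eq hinf (D + 1))
  have hcard : hfin.toFinset.card ≤ D := by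
    by_contra hlt
    rw [not_le] at hlt
    obtain ⟨t, ht, hc⟩ := Finset.exists_subset_card_eq (Nat.succ_le_of_lt hlt)
    exact hno ⟨t, fun x hx => (hfin.mem_toFinset).1 (ht hx), hc⟩
  have hW : Submodule.span K₀ (S : Set Ω) = Submodule.span K₀ ((hfin.toFinset : Finset Ω) : Set Ω) := by
    rw [Set.Finite.coe_toFinset, hbspan]
  have hfg : (Submodule.span K₀ (S : Set Ω)).FG := by
    rw [hW]
    exact Submodule.fg_span (Finset.finite_toSet _)
  have hadj : Subalgebra.toSubmodule (Algebra.adjoin K₀ (S : Set Ω)) =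
      Submodule.span K₀ (S : Set Ω) := by
    rw [Algebra.adjoin_eq_span, Submonoid.closure_eq]
  have halg : ∀ x ∈ (S : Set Ω), IsAlgebraic K₀ x := fun x hx =>
    (IsIntegral.of_mem_of_fg (Algebra.adjoin K₀ (S : Set Ω)) (hadj ▸ hfg) x
      (Algebra.subset_adjoin hx)).isAlgebraic
  have hE : (IntermediateField.adjoin K₀ (S : Set Ω)).toSubalgebra = Algebra.adjoin K₀ (S : Set Ω) :=
    IntermediateField.adjoin_toSubalgebra_of_isAlgebraic halg
  have hspan : Subalgebra.toSubmodule (IntermediateField.adjoin K₀ (S : Set Ω)).toSubalgebra =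
      Submodule.span K₀ ((hfin.toFinset : Finset Ω) : Set Ω) := by
    rw [hE, hadj, hW]
  have hfd : FiniteDimensional K₀
      ↥(Subalgebra.toSubmodule (IntermediateField.adjoin K₀ (S : Set Ω)).toSubalgebra) := by
    rw [hspan]
    exact FiniteDimensional.span_finset K₀ _
  have hfr : Module.finrank K₀
      ↥(Subalgebra.toSubmodule (IntermediateField.adjoin K₀ (S : Set Ω)).toSubalgebra) ≤ D := by
    rw [hspan]
    exact (finrank_span_finset_le_card _).trans hcard
  exact ⟨hfd, hfr⟩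

end Generic

/-! ### The counting step -/

section Count

variable (ℓ M p : ℕ) [hℓ : Fact ℓ.Prime] [NeZero M]

/-- **IRR-2 with the counting step: the residue jump.** -/
theorem exists_linearIndependent_gamma (hp : p.Prime) (hpM : ¬ p ∣ M) (hpℓ : p ≠ ℓ)
    (hℓM : ¬ ℓ ∣ M) (D : ℕ) (k : Subfield (LaurentSeries (ZMod ℓ)))
    (hk : ∀ (d : ℕ) [NeZero d], d ∣ M → jqNModC (ZMod ℓ) d ∈ k)
    (hdep : ∀ x : Fin (D + 1) → LaurentSeries (ZMod ℓ), (∀ i, x i ∈ k) →
      ∃ g : Fin (D + 1) → LaurentSeries (ZMod ℓ), (∀ i, g i ∈ resField ℓ) ∧ (∃ i, g i ≠ 0) ∧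
        ∑ i, g i * x i = 0)
    (hD : D < dedekindPsi (M * p)) :
    ∃ (d : ℕ) (_ : NeZero (d * p)), d ∣ M ∧
      ∀ g : Fin (p + 1) → LaurentSeries (ZMod ℓ), (∀ i, g i ∈ k) →
        ∑ i, g i * jqNModC (ZMod ℓ) (d * p) ^ (i : ℕ) = 0 → ∀ i, g i = 0 := by
  classical
  have hp0 : NeZero p := ⟨hp.ne_zero⟩
  have hℓN : ¬ ℓ ∣ M * p := by
    intro h
    rcases (Nat.Prime.dvd_mul hℓ.out).1 h with h1 | h1
    · exact hℓM h1
    · exact hpℓ ((Nat.prime_dvd_prime_iff_eq hℓ.out hp).1 h1).symm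
  obtain ⟨F, hF, hac, hch, hdata⟩ := exists_modEqData_charP (N := M * p) hℓ.out hℓN
  let _ := ZMod.algebra F ℓ
  obtain ⟨hfin, hα⟩ := towerBound_holds (M * p) F fun q hq hqN => by
    obtain ⟨ζ, pinv, -, hd⟩ := hdata q hq hqN
    exact ⟨ζ, pinv, hd⟩
  set φ := towerPhi ℓ (M * p) F with hφ
  set K₀ := IntermediateField.adjoin F ({J (1 : Fˣ) (M * p)} : Set (LaurentSeries F)) with hK₀
  -- the submonoid `φ k`
  set S : Submonoid (LaurentSeries F) := k.toSubring.toSubmonoid.map (φ : _ →* _) with hS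
  have hSmem : ∀ x, x ∈ S ↔ ∃ y ∈ k, φ y = x := fun x => by
    rw [hS, Submonoid.mem_map]
    rfl
  set K : IntermediateField K₀ (LaurentSeries F) :=
    IntermediateField.adjoin K₀ (S : Set (LaurentSeries F)) with hK
  -- `φ` maps `𝔽_ℓ(j̄)` into `K₀`
  have hres : ∀ g ∈ resField ℓ, φ g ∈ K₀ := by
    have hle : resField ℓ ≤ K₀.toSubfield.comap φ := by
      rw [resField, Subfield.closure_le]
      intro x hx
      rw [Set.mem_singleton_iff.mp hx]
      show φ (jqModC (ZMod ℓ)) ∈ K₀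
      rw [hφ, towerPhi_jqModC]
      exact IntermediateField.subset_adjoin F _ (Set.mem_singleton _)
    exact fun g hg => hle hg
  -- Step A: `[K : K₀] ≤ D`
  obtain ⟨hKfin, hKD⟩ := finrank_adjoin_le_of_dependent (K₀ := ↥K₀) S D (by
    intro x hx hli
    have hx' : ∀ i, ∃ y ∈ k, φ y = x i := fun i => (hSmem _).1 (hx i)
    choose y hyk hy using hx'
    obtain ⟨g, hg, ⟨i₀, hi₀⟩, hsum⟩ := hdep y hyk
    rw [Fintype.linearIndependent_iff] at hli
    have h1 := hli (fun i => (⟨φ (g i), hres _ (hg i)⟩ : ↥K₀)) (by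
      have := congrArg φ hsum
      rw [map_zero, map_sum] at this
      rw [← this]
      refine Finset.sum_congr rfl fun i _ => ?_
      rw [IntermediateField.smul_def, smul_eq_mul, map_mul, hy]) i₀
    have h2 : φ (g i₀) = 0 := congrArg Subtype.val h1
    exact hi₀ ((map_eq_zero φ).mp h2))
  -- `φ` of the generators
  have hφd : ∀ (d : ℕ) [NeZero d], φ (jqNModC (ZMod ℓ) d) = J (1 : Fˣ) (d * (M * p)) :=
    fun d _ => towerPhi_jqNModC ℓ (M * p) F d
  have hSK : ∀ x ∈ S, x ∈ K := fun x hx => IntermediateField.subset_adjoin K₀ _ hx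
  have hdK : ∀ (d : ℕ) [NeZero d], d ∣ M → J (1 : Fˣ) (d * (M * p)) ∈ K := by
    intro d _ hd
    rw [← hφd d]
    exact hSK _ ((hSmem _).2 ⟨_, hk d hd, rfl⟩)
  -- Step B: some `γ_d ∉ K`
  have hB : ∃ (d : ℕ) (_ : NeZero d), d ∣ M ∧ J (1 : Fˣ) ((d * p) * (M * p)) ∉ K := by
    by_contra hall
    have hall' : ∀ (d : ℕ) [NeZero d], d ∣ M → J (1 : Fˣ) ((d * p) * (M * p)) ∈ K := by
      intro d hd0 hd
      by_contra h
      exact hall ⟨d, hd0, hd, h⟩
    have hTK : IntermediateField.adjoin K₀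
        {x : LaurentSeries F | ∃ d : ℕ, ∃ _ : NeZero d, d ∣ M * p ∧ x = J (1 : Fˣ) (d * (M * p))}
          ≤ K := by
      rw [IntermediateField.adjoin_le_iff]
      rintro x ⟨e, he0, heN, rfl⟩
      by_cases hpe : p ∣ e
      · obtain ⟨e', rfl⟩ := hpe
        have he' : e' ∣ M := by
          have h1 : p * e' ∣ p * M := by rwa [mul_comm p M]
          exact Nat.dvd_of_mul_dvd_mul_left hp.pos h1
        have he'0 : NeZero e' := ⟨fun h => he0.out (by rw [h, mul_zero])⟩
        have := hall' e' he'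
        rw [J_congr (1 : Fˣ) (show (p * e') * (M * p) = (e' * p) * (M * p) by ring)]
        exact this
      · have hcop : Nat.Coprime e p := (Nat.Coprime.symm ((Nat.Prime.coprime_iff_not_dvd hp).2 hpe))
        exact hdK e (hcop.dvd_of_dvd_mul_right heN)
    have h1 : Module.finrank K₀ ↥(IntermediateField.adjoin K₀
        {x : LaurentSeries F | ∃ d : ℕ, ∃ _ : NeZero d, d ∣ M * p ∧ x = J (1 : Fˣ) (d * (M * p))})
          ≤ Module.finrank K₀ ↥K := by
      have h2 : Subalgebra.toSubmodule (IntermediateField.adjoin K₀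
        {x : LaurentSeries F | ∃ d : ℕ, ∃ _ : NeZero d, d ∣ M * p ∧
          x = J (1 : Fˣ) (d * (M * p))}).toSubalgebra ≤ Subalgebra.toSubmodule K.toSubalgebra :=
        hTK
      exact Submodule.finrank_mono h2
    exact absurd (hα.trans (h1.trans hKD)) (not_le.2 hD)
  obtain ⟨d, hd0, hdM, hγ⟩ := hB
  have hdp0 : NeZero (d * p) := inferInstance
  refine ⟨d, hdp0, hdM, ?_⟩
  obtain ⟨ζ, pinv, -, ⟨dat⟩⟩ := hdata p hp (dvd_mul_left p M)
  have hn0 : NeZero (d * M) := inferInstance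
  -- `K` consists of series in `t^{Mp}`
  have hK₀L : K₀ ≤ levelField F (M * p) := by
    rw [hK₀, IntermediateField.adjoin_le_iff, Set.singleton_subset_iff]
    exact mem_levelField_iff.2 (J_mem_levelSub (dvd_refl _) 1)
  let LS : IntermediateField K₀ (LaurentSeries F) :=
    { (levelSub F (M * p)) with
      algebraMap_mem' := fun r => mem_levelField_iff.1 (hK₀L r.2) }
  have hKL : K ≤ LS := by
    rw [hK, IntermediateField.adjoin_le_iff]
    intro x hx
    obtain ⟨y, -, rfl⟩ := (hSmem x).1 hx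
    show φ y ∈ levelSub F (M * p)
    rw [hφ, towerPhi, RingHom.comp_apply]
    exact qExpand_mem_levelSub _ _
  have hrange : ∀ x, x ∈ (algebraMap ↥K (LaurentSeries F)).range ↔ x ∈ K :=
    fun x => ⟨fun ⟨y, hy⟩ => hy ▸ y.2, fun hx => ⟨⟨x, hx⟩, rfl⟩⟩
  have hdich := natDegree_minpoly_of_not_mem_range (K := ↥K) dat (d * M) (M * p)
    (fun x => dvd_order_of_mem_levelSub (hKL x.2))
    (fun k hk0 hkp => by
      have hpd : ¬ (p : ℤ) ∣ (-(d : ℤ)) := by
        rw [dvd_neg]
        intro h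
        exact hpM ((Int.natCast_dvd_natCast.1 h).trans hdM)
      have := not_dvd_mul_of_lt_prime hp (NeZero.ne M) hpd hk0 hkp
      intro hdvd
      apply this
      have e1 : ((p * M : ℕ) : ℤ) = ((M * p : ℕ) : ℤ) := by rw [mul_comm]
      have e2 : (k : ℤ) * (-(d : ℤ) * (M : ℤ)) = (k : ℤ) * (-((d * M : ℕ) : ℤ)) := by
        push_cast; ring
      rw [e1, e2]
      exact hdvd)
    (fun c => (hrange _).2 (by
      have : (HahnSeries.C c : LaurentSeries F) = algebraMap F (LaurentSeries F) c :=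
        (algebraMap_laurentSeries_eq_C c).symm
      rw [this]
      exact K.algebraMap_mem (algebraMap F ↥K₀ c)))
    ((hrange _).2 (by
      rw [J_congr (1 : Fˣ) (show d * M * p = d * (M * p) by ring)]
      exact hdK d hdM))
    (fun h => hγ (by
      rw [J_congr (1 : Fˣ) (show d * p * (M * p) = d * M * (p * p) by ring)]
      exact (hrange _).1 h))
  obtain ⟨hint, hdeg⟩ := hdich
  set γ := J (1 : Fˣ) (d * M * (p * p)) with hγdef
  have hφγ : φ (jqNModC (ZMod ℓ) (d * p)) = γ := by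
    rw [hφd (d * p), hγdef]
    exact J_congr (1 : Fˣ) (by ring)
  have hli := linearIndependent_pow (K := ↥K) γ
  have hli' : LinearIndependent ↥K (fun j : Fin (p + 1) => γ ^ (j : ℕ)) := by
    have := hli.comp (Fin.cast hdeg.symm) (Fin.cast_injective _)
    simpa [Function.comp_def] using this
  intro g hg hsum i
  rw [Fintype.linearIndependent_iff] at hli'
  have h1 := hli' (fun j => (⟨φ (g j), hSK _ ((hSmem _).2 ⟨_, hg j, rfl⟩)⟩ : ↥K)) (by
      have := congrArg φ hsum
      rw [map_zero, map_sum] at this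
      rw [← this]
      refine Finset.sum_congr rfl fun j _ => ?_
      rw [IntermediateField.smul_def, smul_eq_mul, map_mul, map_pow, hφγ]) i
  have h2 : φ (g i) = 0 := congrArg Subtype.val h1
  exact (map_eq_zero φ).mp h2


/-- Same statement with `ψ(M p) = (p + 1) ψ(M)` unfolded. -/
theorem exists_linearIndependent_gamma' (hp : p.Prime) (hpM : ¬ p ∣ M) (hpℓ : p ≠ ℓ)
    (hℓM : ¬ ℓ ∣ M) (D : ℕ) (k : Subfield (LaurentSeries (ZMod ℓ)))
    (hk : ∀ (d : ℕ) [NeZero d], d ∣ M → jqNModC (ZMod ℓ) d ∈ k)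
    (hdep : ∀ x : Fin (D + 1) → LaurentSeries (ZMod ℓ), (∀ i, x i ∈ k) →
      ∃ g : Fin (D + 1) → LaurentSeries (ZMod ℓ), (∀ i, g i ∈ resField ℓ) ∧ (∃ i, g i ≠ 0) ∧
        ∑ i, g i * x i = 0)
    (hD : D < (p + 1) * dedekindPsi M) :
    ∃ (d : ℕ) (_ : NeZero (d * p)), d ∣ M ∧
      ∀ g : Fin (p + 1) → LaurentSeries (ZMod ℓ), (∀ i, g i ∈ k) →
        ∑ i, g i * jqNModC (ZMod ℓ) (d * p) ^ (i : ℕ) = 0 → ∀ i, g i = 0 :=
  exists_linearIndependent_gamma ℓ M p hp hpM hpℓ hℓM D k hk hdep (by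
    rw [mul_comm M p, Fermat.Agent.BR.GenusCount.dedekindPsi_prime_mul hp hpM]
    exact hD)

end Count

end Fermat.Agent.DS.IG

end
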